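/-
GATE-R (S17) / W / K2, route UPFV (helper19): the polynomial system `u ^ p = f * v`.

Pure algebra on top of helper22's multi-variable Hensel lemma (`GR/W/MvHensel.lean`).

`K` is an algebraically closed field with a valuation subring `A`; `F` is a commutative
`K`-algebra.  Given finite families `μ0, μ i` ("lattice basis of `V_u`", `μ0` the distinguished
vector), `φ0, φ i` (`V_f`), `ν j` (`V_v`, distinguished index `j0`) and a `K`-linearly independent
family `ω m` (`V`), such that all `p`-fold products of the `μ`'s and all products `φ * ν` have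
`A`-coordinates with respect to `ω` (structure constants), the system

  `(μ0 + ∑ x i • μ i) ^ p = (φ0 + ∑ y i • φ i) * (∑ z j • ν j)`

in the unknowns `x, y, z` is a square polynomial system over `A` as soon as the index types match
(`e : ιu ⊕ (ιf ⊕ ιv) ≃ ιV`).  If `(0, 0, e_{j0})` is a root modulo `𝔪_A` and the linearised system
at this point is injective modulo `𝔪_A`, there is an exact root congruent to it.
-/
import Mathlib
import Fermat.Agent.GR.W.MvHensel

set_option autoImplicit false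

noncomputable section

namespace Fermat.Agent.GR.W.K2.Upfv.PolySys

open MvPolynomial IsLocalRing

variable {K : Type*} [Field K] (A : ValuationSubring K)
variable {F : Type*} [CommRing F] [Algebra K F]
variable {ιu ιf ιv ιV : Type*} [Fintype ιu] [Fintype ιf] [Fintype ιv] [Fintype ιV]

/-- the coefficient embedding `A → F`. -/
def rho : A →+* F := (algebraMap K F).comp A.subtype

theorem rho_mul_eq_smul (a : A) (w : F) : rho A a * w = ((a : A) : K) • w := by
  rw [Algebra.smul_def]; rfl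

/-- the index type of the unknowns. -/
abbrev Unk (ιu ιf ιv : Type*) := ιu ⊕ (ιf ⊕ ιv)

/-- generic coordinates of `u` (the distinguished coordinate is `1`). -/
def aU : Option ιu → MvPolynomial (Unk ιu ιf ιv) A := fun o => o.elim 1 fun i => X (Sum.inl i)

/-- generic coordinates of `f` (the distinguished coordinate is `1`). -/
def aF : Option ιf → MvPolynomial (Unk ιu ιf ιv) A :=
  fun o => o.elim 1 fun i => X (Sum.inr (Sum.inl i))

/-- generic coordinates of `v`. -/
def aV : ιv → MvPolynomial (Unk ιu ιf ιv) A := fun j => X (Sum.inr (Sum.inr j))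

variable (p : ℕ) (d : (Fin p → Option ιu) → ιV → A) (c : Option ιf → ιv → ιV → A)

/-- the `m`-th equation: the `ω m`-coordinate of `u ^ p - f * v`. -/
def Fpoly (m : ιV) : MvPolynomial (Unk ιu ιf ιv) A :=
  (∑ s : Fin p → Option ιu, C (d s m) * ∏ r, aU A (ιf := ιf) (ιv := ιv) (s r)) -
    ∑ o : Option ιf, ∑ j : ιv, C (c o j m) * aF A (ιu := ιu) (ιv := ιv) o *
      aV A (ιu := ιu) (ιf := ιf) j

variable (μ0 : F) (μ : ιu → F) (φ0 : F) (φ : ιf → F) (ν : ιv → F) (ω : ιV → F)

/-- the family `μ0, μ i`. -/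
def muO : Option ιu → F := fun o => o.elim μ0 μ

/-- the family `φ0, φ i`. -/
def phiO : Option ιf → F := fun o => o.elim φ0 φ

/-- the generic `u` as a polynomial with coefficients in `F`. -/
def Ug : MvPolynomial (Unk ιu ιf ιv) F :=
  ∑ o : Option ιu, map (rho A) (aU A (ιf := ιf) (ιv := ιv) o) * C (muO μ0 μ o)

/-- the generic `f`. -/
def Fg : MvPolynomial (Unk ιu ιf ιv) F :=
  ∑ o : Option ιf, map (rho A) (aF A (ιu := ιu) (ιv := ιv) o) * C (phiO φ0 φ o)

/-- the generic `v`. -/
def Vg : MvPolynomial (Unk ιu ιf ιv) F :=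
  ∑ j : ιv, map (rho A) (aV A (ιu := ιu) (ιf := ιf) j) * C (ν j)

section Identity

variable (hd : ∀ s : Fin p → Option ιu,
    ∏ r, muO μ0 μ (s r) = ∑ m, ((d s m : A) : K) • ω m)
variable (hc : ∀ (o : Option ιf) (j : ιv),
    phiO φ0 φ o * ν j = ∑ m, ((c o j m : A) : K) • ω m)

include hd hc in
/-- **the generic identity** in `F[x, y, z]`. -/
theorem generic_identity :
    ∑ m, map (rho A) (Fpoly A p d c m) * C (ω m) =
      Ug A (ιf := ιf) (ιv := ιv) μ0 μ ^ p -
        Fg A (ιu := ιu) (ιv := ιv) φ0 φ * Vg A (ιu := ιu) (ιf := ιf) ν := by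
  classical
  have hU : Ug A (ιf := ιf) (ιv := ιv) μ0 μ ^ p =
      ∑ m, (∑ s : Fin p → Option ιu, C (rho A (d s m)) *
        ∏ r, map (rho A) (aU A (ιf := ιf) (ιv := ιv) (s r))) * C (ω m) := by
    have h1 : Ug A (ιf := ιf) (ιv := ιv) μ0 μ ^ p =
        ∏ _r : Fin p, Ug A (ιf := ιf) (ιv := ιv) μ0 μ := by
      rw [Finset.prod_const, Finset.card_univ, Fintype.card_fin]
    rw [h1, Ug, Finset.prod_univ_sum, Fintype.piFinset_univ]
    have h2 : ∀ s : Fin p → Option ιu,
        ∏ r, (map (rho A) (aU A (ιf := ιf) (ιv := ιv) (s r)) * C (muO μ0 μ (s r))) =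
          ∑ m, (C (rho A (d s m)) *
            ∏ r, map (rho A) (aU A (ιf := ιf) (ιv := ιv) (s r))) * C (ω m) := by
      intro s
      rw [Finset.prod_mul_distrib, ← map_prod C, hd s, map_sum, Finset.mul_sum]
      refine Finset.sum_congr rfl fun m _ => ?_
      rw [← rho_mul_eq_smul, map_mul]
      ring
    rw [Finset.sum_congr rfl fun s _ => h2 s, Finset.sum_comm]
    refine Finset.sum_congr rfl fun m _ => ?_
    rw [Finset.sum_mul]
  have hFV : Fg A (ιu := ιu) (ιv := ιv) φ0 φ * Vg A (ιu := ιu) (ιf := ιf) ν =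
      ∑ m, (∑ o : Option ιf, ∑ j : ιv, C (rho A (c o j m)) *
        map (rho A) (aF A (ιu := ιu) (ιv := ιv) o) *
          map (rho A) (aV A (ιu := ιu) (ιf := ιf) j)) * C (ω m) := by
    rw [Fg, Vg, Finset.sum_mul_sum]
    have h2 : ∀ (o : Option ιf) (j : ιv),
        map (rho A) (aF A (ιu := ιu) (ιv := ιv) o) * C (phiO φ0 φ o) *
          (map (rho A) (aV A (ιu := ιu) (ιf := ιf) j) * C (ν j)) =
          ∑ m, (C (rho A (c o j m)) * map (rho A) (aF A (ιu := ιu) (ιv := ιv) o) *
            map (rho A) (aV A (ιu := ιu) (ιf := ιf) j)) * C (ω m) := by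
      intro o j
      have : map (rho A) (aF A (ιu := ιu) (ιv := ιv) o) * C (phiO φ0 φ o) *
          (map (rho A) (aV A (ιu := ιu) (ιf := ιf) j) * C (ν j)) =
          map (rho A) (aF A (ιu := ιu) (ιv := ιv) o) *
            map (rho A) (aV A (ιu := ιu) (ιf := ιf) j) * C (phiO φ0 φ o * ν j) := by
        rw [map_mul]; ring
      rw [this, hc o j, map_sum, Finset.mul_sum]
      refine Finset.sum_congr rfl fun m _ => ?_
      rw [← rho_mul_eq_smul, map_mul]
      ring
    rw [Finset.sum_congr rfl fun o _ => Finset.sum_congr rfl fun j _ => h2 o j]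
    rw [Finset.sum_congr rfl fun o _ => Finset.sum_comm, Finset.sum_comm]
    refine Finset.sum_congr rfl fun m _ => ?_
    rw [Finset.sum_mul]
    refine Finset.sum_congr rfl fun o _ => ?_
    rw [Finset.sum_mul]
  rw [hU, hFV, ← Finset.sum_sub_distrib]
  refine Finset.sum_congr rfl fun m _ => ?_
  rw [← sub_mul]
  congr 1
  simp only [Fpoly, map_sub, map_sum, map_mul, map_prod, map_C]

end Identity


section Eval

/-- evaluation at an `A`-point, as a ring hom `F[x, y, z] → F`. -/
def ev (x : Unk ιu ιf ιv → A) : MvPolynomial (Unk ιu ιf ιv) F →+* F :=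
  eval fun i => rho A (F := F) (x i)

omit [Fintype ιu] [Fintype ιf] [Fintype ιv] in
theorem ev_map (x : Unk ιu ιf ιv → A) (q : MvPolynomial (Unk ιu ιf ιv) A) :
    ev A (F := F) x (map (rho A) q) = rho A (eval x q) := by
  rw [ev, eval_map]
  change _ = rho A (eval₂ (RingHom.id A) x q)
  rw [eval₂_comp_left, RingHom.comp_id]
  rfl

omit [Fintype ιu] [Fintype ιf] [Fintype ιv] in
theorem ev_C (x : Unk ιu ιf ιv → A) (a : F) : ev A x (C a) = a := by
  rw [ev, eval_C]

/-- the value of `u` at the point `x`. -/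
def uval (x : Unk ιu ιf ιv → A) : F := μ0 + ∑ i, rho A (x (Sum.inl i)) * μ i

/-- the value of `f` at the point `x`. -/
def fval (x : Unk ιu ιf ιv → A) : F := φ0 + ∑ i, rho A (x (Sum.inr (Sum.inl i))) * φ i

/-- the value of `v` at the point `x`. -/
def vval (x : Unk ιu ιf ιv → A) : F := ∑ j, rho A (x (Sum.inr (Sum.inr j))) * ν j

omit [Fintype ιf] [Fintype ιv] in
theorem ev_Ug (x : Unk ιu ιf ιv → A) :
    ev A x (Ug A (ιf := ιf) (ιv := ιv) μ0 μ) = uval A μ0 μ x := by
  rw [Ug, Fintype.sum_option, map_add, map_sum, uval]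
  congr 1
  · simp [aU, muO, ev_C]
  · refine Finset.sum_congr rfl fun i _ => ?_
    simp [aU, muO, ev_C, ev]

omit [Fintype ιu] [Fintype ιv] in
theorem ev_Fg (x : Unk ιu ιf ιv → A) :
    ev A x (Fg A (ιu := ιu) (ιv := ιv) φ0 φ) = fval A φ0 φ x := by
  rw [Fg, Fintype.sum_option, map_add, map_sum, fval]
  congr 1
  · simp [aF, phiO, ev_C]
  · refine Finset.sum_congr rfl fun i _ => ?_
    simp [aF, phiO, ev_C, ev]

omit [Fintype ιu] [Fintype ιf] in
theorem ev_Vg (x : Unk ιu ιf ιv → A) :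
    ev A x (Vg A (ιu := ιu) (ιf := ιf) ν) = vval A ν x := by
  rw [Vg, map_sum, vval]
  refine Finset.sum_congr rfl fun j _ => ?_
  simp [aV, ev_C, ev]

variable (hd : ∀ s : Fin p → Option ιu,
    ∏ r, muO μ0 μ (s r) = ∑ m, ((d s m : A) : K) • ω m)
variable (hc : ∀ (o : Option ιf) (j : ιv),
    phiO φ0 φ o * ν j = ∑ m, ((c o j m : A) : K) • ω m)

include hd hc in
/-- **evaluation of the system**. -/
theorem eval_identity (x : Unk ιu ιf ιv → A) :
    ∑ m, rho A (eval x (Fpoly A p d c m)) * ω m =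
      uval A μ0 μ x ^ p - fval A φ0 φ x * vval A ν x := by
  have h := congrArg (ev A x) (generic_identity A p d c μ0 μ φ0 φ ν ω hd hc)
  rw [map_sum, map_sub, map_pow, map_mul, ev_Ug, ev_Fg, ev_Vg] at h
  rw [← h]
  refine Finset.sum_congr rfl fun m _ => ?_
  rw [map_mul, ev_map, ev_C]

/-- the derivative of the generic `u`. -/
def dU : Unk ιu ιf ιv → F := Sum.elim μ fun _ => 0

/-- the derivative of the generic `f`. -/
def dF : Unk ιu ιf ιv → F := Sum.elim (fun _ => 0) (Sum.elim φ fun _ => 0)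

/-- the derivative of the generic `v`. -/
def dV : Unk ιu ιf ιv → F := Sum.elim (fun _ => 0) (Sum.elim (fun _ => 0) ν)

omit [Fintype ιf] [Fintype ιv] in
theorem pderiv_Ug (b : Unk ιu ιf ιv) :
    pderiv b (Ug A (ιf := ιf) (ιv := ιv) μ0 μ) = C (dU (ιf := ιf) (ιv := ιv) μ b) := by
  classical
  rw [Ug, Fintype.sum_option, map_add, map_sum]
  have h0 : pderiv b (map (rho A) (aU A (ιf := ιf) (ιv := ιv) none) * C (muO μ0 μ none)) = 0 := by
    simp [aU, pderiv_mul, pderiv_C]
  rw [h0, zero_add]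
  have h1 : ∀ i : ιu, pderiv b (map (rho A) (aU A (ιf := ιf) (ιv := ιv) (some i)) *
      C (muO μ0 μ (some i))) = if Sum.inl i = b then C (μ i) else 0 := by
    intro i
    simp only [aU, Option.elim, map_X, muO, pderiv_mul, pderiv_C, mul_zero, add_zero, pderiv_X,
      Pi.single_apply]
    split_ifs
    · rw [one_mul]
    · rw [zero_mul]
  rw [Finset.sum_congr rfl fun i _ => h1 i]
  rcases b with i₀ | b
  · simp [dU, Sum.inl.injEq]
  · simp [dU]

omit [Fintype ιu] [Fintype ιv] in
theorem pderiv_Fg (b : Unk ιu ιf ιv) :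
    pderiv b (Fg A (ιu := ιu) (ιv := ιv) φ0 φ) = C (dF (ιu := ιu) (ιv := ιv) φ b) := by
  classical
  rw [Fg, Fintype.sum_option, map_add, map_sum]
  have h0 : pderiv b (map (rho A) (aF A (ιu := ιu) (ιv := ιv) none) * C (phiO φ0 φ none)) = 0 := by
    simp [aF, pderiv_mul, pderiv_C]
  rw [h0, zero_add]
  have h1 : ∀ i : ιf, pderiv b (map (rho A) (aF A (ιu := ιu) (ιv := ιv) (some i)) *
      C (phiO φ0 φ (some i))) = if Sum.inr (Sum.inl i) = b then C (φ i) else 0 := by
    intro i
    simp only [aF, Option.elim, map_X, phiO, pderiv_mul, pderiv_C, mul_zero, add_zero, pderiv_X,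
      Pi.single_apply]
    split_ifs
    · rw [one_mul]
    · rw [zero_mul]
  rw [Finset.sum_congr rfl fun i _ => h1 i]
  rcases b with b | i₀ | b
  · simp [dF]
  · simp [dF, Sum.inr.injEq, Sum.inl.injEq]
  · simp [dF]

omit [Fintype ιu] [Fintype ιf] in
theorem pderiv_Vg (b : Unk ιu ιf ιv) :
    pderiv b (Vg A (ιu := ιu) (ιf := ιf) ν) = C (dV (ιu := ιu) (ιf := ιf) ν b) := by
  classical
  rw [Vg, map_sum]
  have h1 : ∀ j : ιv, pderiv b (map (rho A) (aV A (ιu := ιu) (ιf := ιf) j) * C (ν j)) =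
      if Sum.inr (Sum.inr j) = b then C (ν j) else 0 := by
    intro j
    simp only [aV, map_X, pderiv_mul, pderiv_C, mul_zero, add_zero, pderiv_X, Pi.single_apply]
    split_ifs
    · rw [one_mul]
    · rw [zero_mul]
  rw [Finset.sum_congr rfl fun j _ => h1 j]
  rcases b with b | b | j₀
  · simp [dV]
  · simp [dV]
  · simp [dV, Sum.inr.injEq]

include hd hc in
/-- **derivative of the system**. -/
theorem pderiv_identity (x : Unk ιu ιf ιv → A) (b : Unk ιu ιf ιv) :
    ∑ m, rho A (eval x (pderiv b (Fpoly A p d c m))) * ω m =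
      (p : F) * uval A μ0 μ x ^ (p - 1) * dU (ιf := ιf) (ιv := ιv) μ b -
        (dF (ιu := ιu) (ιv := ιv) φ b * vval A ν x +
          fval A φ0 φ x * dV (ιu := ιu) (ιf := ιf) ν b) := by
  have h := congrArg (fun q => ev A x (pderiv b q))
    (generic_identity A p d c μ0 μ φ0 φ ν ω hd hc)
  rw [map_sum, map_sum, map_sub, map_sub, pderiv_pow, pderiv_mul, pderiv_Ug, pderiv_Fg,
    pderiv_Vg] at h
  simp only [map_mul, map_add, map_pow, map_natCast, ev_Ug, ev_Fg, ev_Vg, ev_C] at h
  rw [← h]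
  refine Finset.sum_congr rfl fun m _ => ?_
  rw [pderiv_mul, pderiv_C, mul_zero, add_zero, pderiv_map, map_mul, ev_map, ev_C]

end Eval


section Hensel

variable (j0 : ιv)

open scoped Classical in
/-- the approximate root `(0, 0, e_{j0})`. -/
def x0 : Unk ιu ιf ιv → A :=
  Sum.elim (fun _ => 0) (Sum.elim (fun _ => 0) fun j => if j = j0 then 1 else 0)

omit [Fintype ιf] [Fintype ιv] in
theorem uval_x0 : uval A μ0 μ (x0 A (ιu := ιu) (ιf := ιf) j0) = μ0 := by
  simp [uval, x0]

omit [Fintype ιu] [Fintype ιv] in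
theorem fval_x0 : fval A φ0 φ (x0 A (ιu := ιu) (ιf := ιf) j0) = φ0 := by
  simp [fval, x0]

omit [Fintype ιu] [Fintype ιf] in
theorem vval_x0 : vval A ν (x0 A (ιu := ιu) (ιf := ιf) j0) = ν j0 := by
  classical
  rw [vval, Finset.sum_eq_single j0]
  · simp [x0]
  · intro j _ hj
    simp [x0, hj]
  · intro h; exact absurd (Finset.mem_univ _) h

omit [Fintype ιu] [Fintype ιf] [Fintype ιv] in
/-- uniqueness of `A`-coordinates with respect to a `K`-linearly independent family. -/
theorem coord_unique (hω : LinearIndependent K ω) (a b : ιV → A)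
    (h : ∑ m, rho A (a m) * ω m = ∑ m, ((b m : A) : K) • ω m) : a = b := by
  have h1 : ∑ m, (((a m : A) : K) - ((b m : A) : K)) • ω m = 0 := by
    simp only [sub_smul, Finset.sum_sub_distrib]
    rw [← h, sub_eq_zero]
    exact Finset.sum_congr rfl fun m _ => (rho_mul_eq_smul A (a m) (ω m)).symm
  have h2 := Fintype.linearIndependent_iff.mp hω _ h1
  funext m
  exact Subtype.ext (sub_eq_zero.mp (h2 m))

variable [IsAlgClosed K]

/-- **the Hensel solution of `u ^ p = f * v`.** -/
theorem exists_solution (e : Unk ιu ιf ιv ≃ ιV) (hω : LinearIndependent K ω)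
    (hd : ∀ s : Fin p → Option ιu, ∏ r, muO μ0 μ (s r) = ∑ m, ((d s m : A) : K) • ω m)
    (hc : ∀ (o : Option ιf) (j : ιv), phiO φ0 φ o * ν j = ∑ m, ((c o j m : A) : K) • ω m)
    (happrox : ∃ a : ιV → A, (∀ m, a m ∈ maximalIdeal A) ∧
      μ0 ^ p - φ0 * ν j0 = ∑ m, ((a m : A) : K) • ω m)
    (hinj : ∀ (h : Unk ιu ιf ιv → A) (a : ιV → A), (∀ m, a m ∈ maximalIdeal A) →
      ∑ b, rho A (h b) * ((p : F) * μ0 ^ (p - 1) * dU (ιf := ιf) (ιv := ιv) μ b -
        (dF (ιu := ιu) (ιv := ιv) φ b * ν j0 + φ0 * dV (ιu := ιu) (ιf := ιf) ν b)) =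
          ∑ m, ((a m : A) : K) • ω m →
      ∀ b, h b ∈ maximalIdeal A) :
    ∃ x : Unk ιu ιf ιv → A, (∀ i, x (Sum.inl i) ∈ maximalIdeal A) ∧
      (∀ i, x (Sum.inr (Sum.inl i)) ∈ maximalIdeal A) ∧
      (x (Sum.inr (Sum.inr j0)) - 1 ∈ maximalIdeal A) ∧
      (∀ j, j ≠ j0 → x (Sum.inr (Sum.inr j)) ∈ maximalIdeal A) ∧
      uval A μ0 μ x ^ p = fval A φ0 φ x * vval A ν x := by
  classical
  set xz : Unk ιu ιf ιv → A := x0 A (ιu := ιu) (ιf := ιf) j0 with hxz
  set Fsys : Unk ιu ιf ιv → MvPolynomial (Unk ιu ιf ιv) A := fun a => Fpoly A p d c (e a)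
    with hFsys
  -- the approximate root
  have h₀ : ∀ a, eval xz (Fsys a) ∈ maximalIdeal A := by
    obtain ⟨a, ha, hapx⟩ := happrox
    have h1 := eval_identity A p d c μ0 μ φ0 φ ν ω hd hc xz
    rw [hxz, uval_x0, fval_x0, vval_x0, hapx] at h1
    have h2 := coord_unique A ω hω _ a h1
    intro i
    have := congrFun h2 (e i)
    simp only [hFsys]
    rw [hxz, this]
    exact ha _
  -- the Jacobian
  have hJ : IsUnit (Matrix.det (Matrix.of fun a b => eval xz (pderiv b (Fsys a)))) := by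
    by_contra hnu
    set M : Matrix (Unk ιu ιf ιv) (Unk ιu ιf ιv) A :=
      Matrix.of fun a b => eval xz (pderiv b (Fsys a)) with hM
    have hdet : Matrix.det ((residue A).mapMatrix M) = 0 := by
      rw [← RingHom.map_det, residue_eq_zero_iff]
      exact (mem_maximalIdeal _).mpr hnu
    obtain ⟨vbar, hv0, hv⟩ := Matrix.exists_mulVec_eq_zero_iff.mpr hdet
    choose h hh using fun b => residue_surjective (R := A) (vbar b)
    have hrow : ∀ a, ∑ b, M a b * h b ∈ maximalIdeal A := by
      intro a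
      rw [← residue_eq_zero_iff, map_sum]
      have := congrFun hv a
      simp only [Matrix.mulVec, dotProduct, RingHom.mapMatrix_apply, Matrix.map_apply,
        Pi.zero_apply] at this
      rw [← this]
      refine Finset.sum_congr rfl fun b _ => ?_
      rw [map_mul, hh b]
    set a' : ιV → A := fun m => ∑ b, eval xz (pderiv b (Fpoly A p d c m)) * h b with ha'
    have ha'm : ∀ m, a' m ∈ maximalIdeal A := by
      intro m
      have := hrow (e.symm m)
      simp only [hM, Matrix.of_apply, hFsys, Equiv.apply_symm_apply] at this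
      exact this
    have hsum : ∑ b, rho A (F := F) (h b) * ((p : F) * μ0 ^ (p - 1) *
          dU (ιf := ιf) (ιv := ιv) μ b -
        (dF (ιu := ιu) (ιv := ιv) φ b * ν j0 + φ0 * dV (ιu := ιu) (ιf := ιf) ν b)) =
          ∑ m, ((a' m : A) : K) • ω m := by
      have h1 : ∀ b, (p : F) * μ0 ^ (p - 1) * dU (ιf := ιf) (ιv := ιv) μ b -
          (dF (ιu := ιu) (ιv := ιv) φ b * ν j0 + φ0 * dV (ιu := ιu) (ιf := ιf) ν b) =
          ∑ m, rho A (eval xz (pderiv b (Fpoly A p d c m))) * ω m := by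
        intro b
        have := pderiv_identity A p d c μ0 μ φ0 φ ν ω hd hc xz b
        rw [hxz, uval_x0, fval_x0, vval_x0] at this
        rw [hxz, this]
      rw [Finset.sum_congr rfl fun b _ => by rw [h1 b, Finset.mul_sum], Finset.sum_comm]
      refine Finset.sum_congr rfl fun m _ => ?_
      rw [← rho_mul_eq_smul, ha', map_sum, Finset.sum_mul]
      refine Finset.sum_congr rfl fun b _ => ?_
      rw [map_mul]; ring
    have hall := hinj h a' ha'm hsum
    apply hv0
    funext b
    rw [← hh b, Pi.zero_apply, residue_eq_zero_iff]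
    exact hall b
  obtain ⟨x, hx, hxc⟩ := Fermat.Agent.GR.MvHensel.exists_root A Fsys xz h₀ hJ
  refine ⟨x, fun i => ?_, fun i => ?_, ?_, fun j hj => ?_, ?_⟩
  · have := hxc (Sum.inl i)
    simpa [hxz, x0] using this
  · have := hxc (Sum.inr (Sum.inl i))
    simpa [hxz, x0] using this
  · have := hxc (Sum.inr (Sum.inr j0))
    simpa [hxz, x0] using this
  · have := hxc (Sum.inr (Sum.inr j))
    simpa [hxz, x0, hj] using this
  · have h1 := eval_identity A p d c μ0 μ φ0 φ ν ω hd hc x
    have h2 : ∀ m, eval x (Fpoly A p d c m) = 0 := by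
      intro m
      have := hx (e.symm m)
      simpa [hFsys] using this
    simp only [h2, map_zero, zero_mul, Finset.sum_const_zero] at h1
    exact (sub_eq_zero.mp h1.symm)

end Hensel

end Fermat.Agent.GR.W.K2.Upfv.PolySys
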