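/-
GATE-R (S17) / node GR-W-K2-UPFV, leaf BOOK (helper38): the bookkeeping paragraph of helper19's
chart-free route to `hpair` (board 4799).

Abstract frame of `GH/Vocab.lean`.  `P, P'` two places with the same reduction, `G, G''` effective
divisors whose reductions have disjoint supports, and `u, f, v` Gauss-integral functions reducing
to `1` with

  `u ∈ L(G + G'')`,  `f ∈ L(p•G + P − P')`,  `v ∈ L(p•G'' + P' − P)`,  `u ^ p = f * v`.

Then `div f = p • E − p • G − P + P'` for an effective divisor `E`, hence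
`[P − P'] = p • [E − G]` in `Pic⁰`.

* `le_mapDomain_apply`           : `Z a ≤ (r_* Z) (r a)` for an effective `Z`;
* `exists_eq_nsmul_of_add_eq`    : the pure `Finsupp` statement (`Z_f + Z_v = p • Z_u`, the
                                   push-forwards of `Z_f`, `Z_v` have disjoint supports
                                   `⟹ Z_f = p • E`);
* `mapDomain_div_eq_zero`        : `red y = 1 ⟹ r_* (div y) = 0`;
* `exists_div_eq`                : the divisor of `f`;
* `exists_nsmul_eq`              : the class identity, in the `hpair` shape of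
                                   `GR/W/K2/KerGen.exists_nsmul_of_pairs`;
* `hdisj_of_charts`, `exists_nsmul_eq_of_charts` : the same with `G := 𝔠.D0`, `G'' := 𝔠''.D0` for
                                   two charts of `GH/Vocab.lean` with disjoint supports.
-/
import Mathlib
import Fermat.Agent.GH.Vocab
import Fermat.Agent.GH.L.Final

set_option autoImplicit false

noncomputable section

open AlgebraicCurve Module

namespace Fermat.Agent.GR.W.K2.Upfv.Book

open Fermat.Agent.RRh45 Fermat.Agent.GJ.S37MinDiv Fermat.Agent.GJ.J1 Fermat.Agent.GJ.S37LSpace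
  Fermat.Agent.GJ.S37ROfSurj Fermat.Agent.GH

/-! ### `Finsupp` bookkeeping -/

section Fin

variable {α β : Type*}

/-- an effective `Z` is dominated, pointwise, by its push-forward. -/
theorem le_mapDomain_apply (r : α → β) {Z : α →₀ ℤ} (hZ : 0 ≤ Z) (a : α) :
    Z a ≤ Finsupp.mapDomain r Z (r a) := by
  classical
  rw [mapDomain_apply_eq_sum]
  by_cases ha : a ∈ Z.support
  · exact Finset.single_le_sum (f := fun a' => Z a')
      (fun a' _ => by simpa using Finsupp.le_def.mp hZ a')
      (Finset.mem_filter.mpr ⟨ha, rfl⟩)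
  · rw [Finsupp.notMem_support_iff.mp ha]
    exact Finset.sum_nonneg fun a' _ => by simpa using Finsupp.le_def.mp hZ a'

/-- an effective `Z` vanishes at every point whose image is outside the support of `r_* Z`. -/
theorem apply_eq_zero_of_mapDomain (r : α → β) {Z : α →₀ ℤ} (hZ : 0 ≤ Z) {a : α}
    (h : Finsupp.mapDomain r Z (r a) = 0) : Z a = 0 := by
  have h1 := le_mapDomain_apply r hZ a
  have h2 : (0 : ℤ) ≤ Z a := by simpa using Finsupp.le_def.mp hZ a
  omega

/-- **the `Finsupp` core**: `Z_f + Z_v = p • Z_u`, all effective, the push-forwards of `Z_f` and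
`Z_v` nowhere simultaneously non-zero `⟹ Z_f = p • E` with `E` effective. -/
theorem exists_eq_nsmul_of_add_eq (r : α → β) (p : ℕ) {Zf Zv Zu : α →₀ ℤ} (hZf : 0 ≤ Zf)
    (hZv : 0 ≤ Zv) (hZu : 0 ≤ Zu) (hsum : Zf + Zv = p • Zu)
    (hdisj : ∀ b : β, Finsupp.mapDomain r Zf b = 0 ∨ Finsupp.mapDomain r Zv b = 0) :
    ∃ E : α →₀ ℤ, 0 ≤ E ∧ Zf = p • E := by
  classical
  refine ⟨Zu.filter fun a => Finsupp.mapDomain r Zf (r a) ≠ 0, ?_, ?_⟩
  · intro a
    rw [Finsupp.filter_apply]
    split_ifs
    · exact Finsupp.le_def.mp hZu a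
    · exact le_rfl
  · ext a
    rw [Finsupp.smul_apply, Finsupp.filter_apply]
    split_ifs with h
    · have hv : Zv a = 0 :=
        apply_eq_zero_of_mapDomain r hZv ((hdisj (r a)).resolve_left h)
      have := congrArg (fun Z : α →₀ ℤ => Z a) hsum
      simp only [Finsupp.add_apply, Finsupp.smul_apply] at this
      rw [← this, hv, add_zero]
    · rw [smul_zero]
      exact apply_eq_zero_of_mapDomain r hZf (not_not.mp h)

end Fin

/-! ### the frame -/

variable {K F k Ft : Type*} [Field K] [Field F] [Algebra K F] [Field k] [Field Ft] [Algebra k Ft]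
variable {R : RedData K F k Ft} {g c : ℤ}
variable [FiniteResidues K F] [HasPrincipalDivisors K F] [Nonempty (Place K F)]
variable [FiniteResidues k Ft] [HasPrincipalDivisors k Ft] [Nonempty (Place k Ft)]
variable [Infinite k]

/-- `red y = 1 ⟹ r_* (div y) = 0`. -/
theorem mapDomain_div_eq_zero (H : LSpaceHyp R g c) {y : R.Rw} (hy : R.red y = 1)
    {Dy : Divisor K F} (hDy : ∀ P : Place K F, Dy P = P.ord (y : F)) :
    Finsupp.mapDomain (rOf H) Dy = 0 := by
  ext Q
  have hy0 : R.red y ≠ 0 := by rw [hy]; exact one_ne_zero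
  rw [mapDomain_rOf_principal H hy0 hDy Q, hy, Finsupp.zero_apply]
  exact Q.ord_one

omit [FiniteResidues K F] [HasPrincipalDivisors K F] [Nonempty (Place K F)] in
/-- `ord (f ^ n) = n * ord f`. -/
theorem ord_pow_nat (P : Place K F) (f : F) (n : ℕ) : P.ord (f ^ n) = n * P.ord f := by
  by_cases hf : f = 0
  · subst hf
    rcases Nat.eq_zero_or_pos n with rfl | hn
    · simp [P.ord_one]
    · rw [zero_pow hn.ne', P.ord_zero, mul_zero]
  · induction n with
    | zero => simp [P.ord_one]
    | succ n ih =>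
      rw [pow_succ, P.ord_mul (pow_ne_zero n hf) hf, ih]
      push_cast
      ring

omit [FiniteResidues K F] [HasPrincipalDivisors K F] [Nonempty (Place K F)]
  [FiniteResidues k Ft] [HasPrincipalDivisors k Ft] [Nonempty (Place k Ft)] [Infinite k] in
/-- an element of `Rw` with reduction `1` is non-zero. -/
theorem coe_ne_zero_of_red_eq_one {y : R.Rw} (hy : R.red y = 1) : (y : F) ≠ 0 := by
  intro h
  have : y = 0 := Subtype.ext h
  rw [this, map_zero] at hy
  exact zero_ne_one hy

/-- **the divisor of `f`** (helper19 4799, BOOKKEEPING).  `P, P'` in the same residue disc,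
`G, G''` effective with nowhere simultaneously non-zero reductions, `u, f, v` Gauss-integral with
reduction `1`, `u ∈ L(G + G'')`, `f ∈ L(p•G + P − P')`, `v ∈ L(p•G'' + P' − P)` and
`u ^ p = f * v`.  Then `div f = p • E − p • G − P + P'` with `E` effective. -/
theorem exists_div_eq (H : LSpaceHyp R g c) (p : ℕ) {P P' : Place K F}
    (hPP' : rOf H P = rOf H P') {G G'' : Divisor K F}
    (hdisj : ∀ Q : Place k Ft,
      Finsupp.mapDomain (rOf H) G Q = 0 ∨ Finsupp.mapDomain (rOf H) G'' Q = 0)
    {u f v : R.Rw} (hu1 : R.red u = 1) (hf1 : R.red f = 1) (hv1 : R.red v = 1)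
    (hu : (u : F) ∈ riemannRochSpace (G + G''))
    (hf : (f : F) ∈ riemannRochSpace (p • G + Finsupp.single P 1 - Finsupp.single P' 1))
    (hv : (v : F) ∈ riemannRochSpace (p • G'' + Finsupp.single P' 1 - Finsupp.single P 1))
    (huv : (u : F) ^ p = (f : F) * (v : F)) :
    ∃ E : Divisor K F, 0 ≤ E ∧
      ∀ P₀ : Place K F, P₀.ord (f : F) =
        (p • E - p • G - Finsupp.single P 1 + Finsupp.single P' 1 : Divisor K F) P₀ := by
  classical
  have hu0 := coe_ne_zero_of_red_eq_one hu1
  have hf0 := coe_ne_zero_of_red_eq_one hf1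
  have hv0 := coe_ne_zero_of_red_eq_one hv1
  obtain ⟨Du, hDu, -⟩ := HasPrincipalDivisors.exists_divisor (K := K) (u : F) hu0
  obtain ⟨Df, hDf, -⟩ := HasPrincipalDivisors.exists_divisor (K := K) (f : F) hf0
  obtain ⟨Dv, hDv, -⟩ := HasPrincipalDivisors.exists_divisor (K := K) (v : F) hv0
  -- the three effective divisors
  have hZf : (0 : Divisor K F) ≤ Df + (p • G + Finsupp.single P 1 - Finsupp.single P' 1) := by
    intro P₀
    have h := (mem_riemannRochSpace_iff.mp hf P₀).resolve_left hf0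
    rw [Finsupp.add_apply, hDf P₀, Finsupp.zero_apply]
    linarith
  have hZv : (0 : Divisor K F) ≤ Dv + (p • G'' + Finsupp.single P' 1 - Finsupp.single P 1) := by
    intro P₀
    have h := (mem_riemannRochSpace_iff.mp hv P₀).resolve_left hv0
    rw [Finsupp.add_apply, hDv P₀, Finsupp.zero_apply]
    linarith
  have hZu : (0 : Divisor K F) ≤ Du + (G + G'') := by
    intro P₀
    have h := (mem_riemannRochSpace_iff.mp hu P₀).resolve_left hu0
    rw [Finsupp.add_apply, hDu P₀, Finsupp.zero_apply]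
    linarith
  -- `div f + div v = p • div u`
  have hdiv : Df + Dv = p • Du := by
    ext P₀
    rw [Finsupp.add_apply, Finsupp.smul_apply, hDf, hDv, hDu, ← P₀.ord_mul hf0 hv0, ← huv,
      ord_pow_nat, nsmul_eq_mul]
  have hsum : (Df + (p • G + Finsupp.single P 1 - Finsupp.single P' 1)) +
      (Dv + (p • G'' + Finsupp.single P' 1 - Finsupp.single P 1)) = p • (Du + (G + G'')) := by
    rw [smul_add, smul_add, ← hdiv]
    abel
  -- push-forwards
  have hmf : Finsupp.mapDomain (rOf H)
      (Df + (p • G + Finsupp.single P 1 - Finsupp.single P' 1)) =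
        p • Finsupp.mapDomain (rOf H) G := by
    rw [Finsupp.mapDomain_add, mapDomain_div_eq_zero H hf1 hDf, zero_add,
      Finsupp.mapDomain_sub, Finsupp.mapDomain_add, Finsupp.mapDomain_single,
      Finsupp.mapDomain_single, hPP', add_sub_cancel_right, Finsupp.mapDomain_smul]
  have hmv : Finsupp.mapDomain (rOf H)
      (Dv + (p • G'' + Finsupp.single P' 1 - Finsupp.single P 1)) =
        p • Finsupp.mapDomain (rOf H) G'' := by
    rw [Finsupp.mapDomain_add, mapDomain_div_eq_zero H hv1 hDv, zero_add,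
      Finsupp.mapDomain_sub, Finsupp.mapDomain_add, Finsupp.mapDomain_single,
      Finsupp.mapDomain_single, hPP', add_sub_cancel_right, Finsupp.mapDomain_smul]
  obtain ⟨E, hE, hEq⟩ := exists_eq_nsmul_of_add_eq (rOf H) p hZf hZv hZu hsum (fun Q => by
    rw [hmf, hmv, Finsupp.smul_apply, Finsupp.smul_apply]
    rcases hdisj Q with h | h
    · left; rw [h, smul_zero]
    · right; rw [h, smul_zero])
  refine ⟨E, hE, fun P₀ => ?_⟩
  have h := congrArg (fun Z : Divisor K F => Z P₀) hEq
  simp only [Finsupp.add_apply, Finsupp.sub_apply, Finsupp.smul_apply, nsmul_eq_mul] at h ⊢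
  rw [hDf P₀] at h
  linarith

/-- **the class identity** `[P − P'] = p • [E − G]`, in the `hpair` shape of
`GR/W/K2/KerGen.exists_nsmul_of_pairs`: the class of the pair `P − P'` is `p`-divisible in
`Pic⁰`. -/
theorem exists_nsmul_eq (H : LSpaceHyp R g c) {p : ℕ} (hp : p ≠ 0) {P P' : Place K F}
    (hPP' : rOf H P = rOf H P') {G G'' : Divisor K F}
    (hdisj : ∀ Q : Place k Ft,
      Finsupp.mapDomain (rOf H) G Q = 0 ∨ Finsupp.mapDomain (rOf H) G'' Q = 0)
    {u f v : R.Rw} (hu1 : R.red u = 1) (hf1 : R.red f = 1) (hv1 : R.red v = 1)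
    (hu : (u : F) ∈ riemannRochSpace (G + G''))
    (hf : (f : F) ∈ riemannRochSpace (p • G + Finsupp.single P 1 - Finsupp.single P' 1))
    (hv : (v : F) ∈ riemannRochSpace (p • G'' + Finsupp.single P' 1 - Finsupp.single P 1))
    (huv : (u : F) ^ p = (f : F) * (v : F))
    (D : Divisor.degZero (K := K) (F := F))
    (hD : (D : Divisor K F) = Finsupp.single P 1 - Finsupp.single P' 1) :
    ∃ y : Pic0 K F, p • y = Pic0.mk D := by
  obtain ⟨E, -, hE⟩ := exists_div_eq H p hPP' hdisj hu1 hf1 hv1 hu hf hv huv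
  have hf0 := coe_ne_zero_of_red_eq_one hf1
  obtain ⟨Df, hDf, hdegDf⟩ := HasPrincipalDivisors.exists_divisor (K := K) (f : F) hf0
  have hDfeq : Df = p • (E - G) - (D : Divisor K F) := by
    ext P₀
    rw [hDf P₀, hE P₀, hD]
    simp only [Finsupp.add_apply, Finsupp.sub_apply, Finsupp.smul_apply, nsmul_eq_mul]
    ring
  have hdegEG : E - G ∈ Divisor.degZero (K := K) (F := F) := by
    rw [Divisor.mem_degZero]
    have h1 : Divisor.degree (p • (E - G) - (D : Divisor K F)) = 0 := by rw [← hDfeq]; exact hdegDf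
    have h2 : Divisor.degree (D : Divisor K F) = 0 := Divisor.mem_degZero.mp D.2
    rw [map_sub, map_nsmul, h2, sub_zero, nsmul_eq_mul] at h1
    rcases mul_eq_zero.mp h1 with h | h
    · exact absurd (by exact_mod_cast h) hp
    · exact h
  refine ⟨Pic0.mk ⟨E - G, hdegEG⟩, ?_⟩
  have hmk : p • Pic0.mk (⟨E - G, hdegEG⟩ : Divisor.degZero (K := K) (F := F)) =
      Pic0.mk (p • (⟨E - G, hdegEG⟩ : Divisor.degZero (K := K) (F := F))) := rfl
  rw [hmk]
  refine (QuotientAddGroup.eq_iff_sub_mem).mpr ?_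
  rw [AddSubgroup.mem_addSubgroupOf]
  have hcoe : ((p • (⟨E - G, hdegEG⟩ : Divisor.degZero (K := K) (F := F)) - D :
      Divisor.degZero (K := K) (F := F)) : Divisor K F) = Df := by
    rw [hDfeq, AddSubgroup.coe_sub, AddSubgroup.coe_nsmul]
  rw [hcoe]
  exact ⟨(f : F), hf0, hDf⟩

/-! ### the chart form -/

/-- the push-forward of the base divisor of a chart vanishes off the support of the chart. -/
theorem mapDomain_D0_apply_eq_zero (H : LSpaceHyp R g c) {n : ℕ} (𝔠 : Chart H n) {Q : Place k Ft}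
    (hQ : Q ∉ 𝔠.supp) : Finsupp.mapDomain (rOf H) 𝔠.D0 Q = 0 := by
  classical
  rw [Chart.D0, Fermat.Agent.GH.L.mapDomain_sum_single H (fun i => (𝔠.pt i).P) 𝔠.Q
    (fun i => (𝔠.pt i).hP), Finsupp.finsetSum_apply]
  refine Finset.sum_eq_zero fun i _ => ?_
  exact Finsupp.single_eq_of_ne fun h => hQ ⟨i, h.symm⟩

/-- two charts with disjoint supports satisfy the disjointness hypothesis of `exists_div_eq`. -/
theorem hdisj_of_charts (H : LSpaceHyp R g c) {n : ℕ} (𝔠 𝔠'' : Chart H n)
    (h : Disjoint 𝔠.supp 𝔠''.supp) (Q : Place k Ft) :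
    Finsupp.mapDomain (rOf H) 𝔠.D0 Q = 0 ∨ Finsupp.mapDomain (rOf H) 𝔠''.D0 Q = 0 := by
  by_cases hQ : Q ∈ 𝔠.supp
  · exact Or.inr (mapDomain_D0_apply_eq_zero H 𝔠'' (Set.disjoint_left.mp h hQ))
  · exact Or.inl (mapDomain_D0_apply_eq_zero H 𝔠 hQ)

/-- **BOOK, chart form**: `G := 𝔠.D0`, `G'' := 𝔠''.D0` for two charts with disjoint supports. -/
theorem exists_nsmul_eq_of_charts (H : LSpaceHyp R g c) {p : ℕ} (hp : p ≠ 0) {P P' : Place K F}
    (hPP' : rOf H P = rOf H P') {n : ℕ} (𝔠 𝔠'' : Chart H n) (h : Disjoint 𝔠.supp 𝔠''.supp)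
    {u f v : R.Rw} (hu1 : R.red u = 1) (hf1 : R.red f = 1) (hv1 : R.red v = 1)
    (hu : (u : F) ∈ riemannRochSpace (𝔠.D0 + 𝔠''.D0))
    (hf : (f : F) ∈ riemannRochSpace (p • 𝔠.D0 + Finsupp.single P 1 - Finsupp.single P' 1))
    (hv : (v : F) ∈ riemannRochSpace (p • 𝔠''.D0 + Finsupp.single P' 1 - Finsupp.single P 1))
    (huv : (u : F) ^ p = (f : F) * (v : F))
    (D : Divisor.degZero (K := K) (F := F))
    (hD : (D : Divisor K F) = Finsupp.single P 1 - Finsupp.single P' 1) :
    ∃ y : Pic0 K F, p • y = Pic0.mk D :=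
  exists_nsmul_eq H hp hPP' (hdisj_of_charts H 𝔠 𝔠'' h) hu1 hf1 hv1 hu hf hv huv D hD

end Fermat.Agent.GR.W.K2.Upfv.Book
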