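/-
GATE-R / S17 (W) — node GR-W-K2-UPFV-SPACES (helper68): the "lattices + dimension count" half of
helper19's chart-free K2 route (board 4799: `u ^ p = f * v` in FIXED L-spaces).
Abstract frame of `GH/Vocab.lean`.

* `riemann_ineq_special`      : Riemann's inequality on the special fibre, EVERY divisor;
* `finrank_special_of_le`     : `E₀ ≥ 0`, `l(E₀) = 1`, `deg E₀ = g`, `E₀ ≤ E` ⟹ `l(E) = deg E + 1 - g`
  (special fibre);
* `dims_of_special`           : if `l(r_* D) = deg D + 1 - g` then `l(D) = deg D + 1 - g` AND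
  `redSpace R D = L(r_* D)` (EVERY divisor `D`, e.g. `D = p G + P - P'`);
* `dims_of_chart_le`          : the same whenever `r_* D ≥ r_* 𝔠.D0` for a chart `𝔠` with `n = g`;
* `exists_lift_one`           : then `1 = red e₀` for some `e₀ ∈ L(D) ∩ Rw` (when `0 ≤ r_* D`);
* `exists_latticeBasis_first` : lattice basis of `L(D) ∩ Rw`, EVERY `D`, with PRESCRIBED first vector
  `e₀` (`red e₀ ≠ 0`): reductions = `k`-basis of `redSpace R D`, `K`-basis of `L(D)`, Gauss property;
* `exists_coords`             : coordinates in `R.A` of `y ∈ L(D) ∩ Rw`, unique, and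
  "coordinates of the reduction = reduction of the coordinates".
-/
import Mathlib
import Fermat.Agent.GH.L.Semicont
import Fermat.Agent.GR.W.K2.LatticeBasis
import Fermat.Agent.GR.W.K2.AuxData

set_option autoImplicit false
set_option linter.unusedSectionVars false

noncomputable section

open AlgebraicCurve Module

namespace Fermat.Agent.GR.W.K2.Upfv.Spaces

open Fermat.Agent.RRh45 Fermat.Agent.GJ.S37MinDiv Fermat.Agent.GJ.J1 Fermat.Agent.GJ.S37LSpace
  Fermat.Agent.GJ.S37ROfSurj Fermat.Agent.GH Fermat.Agent.GH.L Fermat.Agent.GR.W.K2.LatticeBasis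

variable {K F k Ft : Type*} [Field K] [Field F] [Algebra K F] [Field k] [Field Ft] [Algebra k Ft]
variable {R : RedData K F k Ft} {g c : ℤ}
variable [FiniteResidues K F] [HasPrincipalDivisors K F] [Nonempty (Place K F)]
variable [FiniteResidues k Ft] [HasPrincipalDivisors k Ft] [Nonempty (Place k Ft)]
variable [Infinite k]

/-! ### dimension counts on the special fibre -/

/-- **Riemann's inequality on the special fibre**, EVERY divisor (from `rrFt` in large degree). -/
theorem riemann_ineq_special (H : LSpaceHyp R g c) (E : Divisor k Ft) :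
    Divisor.degree E + 1 - g ≤ (finrank k (riemannRochSpace E) : ℤ) := by
  by_cases hc : c ≤ Divisor.degree E
  · rw [H.rrFt E hc]
  · push Not at hc
    obtain ⟨Q₀⟩ := ‹Nonempty (Place k Ft)›
    set n : ℕ := (c - Divisor.degree E).toNat with hn
    have hnc : (n : ℤ) = c - Divisor.degree E := Int.toNat_of_nonneg (by omega)
    have hdeg : Divisor.degree (E + Finsupp.single Q₀ (n : ℤ)) = c := by
      rw [map_add, Divisor.degree_single, H.degFt Q₀]; push_cast; omega
    have h1 := H.rrFt _ (le_of_eq hdeg.symm)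
    have h2 := (finite_add_single E Q₀ n).2
    rw [H.degFt Q₀, mul_one] at h2
    have h3 : (finrank k (riemannRochSpace (E + Finsupp.single Q₀ (n : ℤ))) : ℤ) ≤
        (finrank k (riemannRochSpace E) : ℤ) + n := by exact_mod_cast h2
    rw [hdeg] at h1
    omega

/-- above a non-special effective divisor of degree `g`, Riemann–Roch is exact (special fibre). -/
theorem finrank_special_of_le (H : LSpaceHyp R g c) {E₀ E : Divisor k Ft}
    (hl : finrank k (riemannRochSpace E₀) = 1) (hdeg : Divisor.degree E₀ = g) (hle : E₀ ≤ E) :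
    (finrank k (riemannRochSpace E) : ℤ) = Divisor.degree E + 1 - g := by
  have h1 := finrank_le_of_le hle
  have h2 := riemann_ineq_special H E
  rw [hl, hdeg] at h1
  push_cast at h1
  omega

/-- above a non-special effective divisor of degree `g`, Riemann–Roch is exact (generic fibre). -/
theorem finrank_generic_of_le (H : LSpaceHyp R g c) {D₀ D : Divisor K F}
    (hl : finrank K (riemannRochSpace D₀) = 1) (hdeg : Divisor.degree D₀ = g) (hle : D₀ ≤ D) :
    (finrank K (riemannRochSpace D) : ℤ) = Divisor.degree D + 1 - g := by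
  have h1 := finrank_le_of_le hle
  have h2 := riemann_ineq H D
  rw [hl, hdeg] at h1
  push_cast at h1
  omega

/-! ### from the special fibre to the generic fibre -/

/-- **semicontinuity, exact form.** If Riemann–Roch is exact for the push-forward `r_* D`, then it is
exact for `D`, and the reduction `L(D) ∩ Rw → L(r_* D)` is ONTO.  EVERY divisor `D`. -/
theorem dims_of_special (H : LSpaceHyp R g c) (D : Divisor K F)
    (h : (finrank k (riemannRochSpace (Finsupp.mapDomain (rOf H) D)) : ℤ) =
      Divisor.degree D + 1 - g) :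
    (finrank K (riemannRochSpace D) : ℤ) = Divisor.degree D + 1 - g ∧
      redSpace R D = riemannRochSpace (Finsupp.mapDomain (rOf H) D) := by
  have h1 := riemann_ineq H D
  have h2 := finrank_le_mapDomain H D
  have h3 : (finrank K (riemannRochSpace D) : ℤ) = Divisor.degree D + 1 - g := by
    have : (finrank K (riemannRochSpace D) : ℤ) ≤
        (finrank k (riemannRochSpace (Finsupp.mapDomain (rOf H) D)) : ℤ) := by exact_mod_cast h2
    omega
  refine ⟨h3, Submodule.eq_of_le_of_finrank_eq (redSpace_le H D) ?_⟩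
  rw [finrank_redSpace_eq H D]
  have : (finrank K (riemannRochSpace D) : ℤ) =
      (finrank k (riemannRochSpace (Finsupp.mapDomain (rOf H) D)) : ℤ) := by rw [h3, h]
  exact_mod_cast this

/-- the same when `r_* D` lies above a non-special effective divisor of degree `g`. -/
theorem dims_of_special_le (H : LSpaceHyp R g c) (D : Divisor K F) {E₀ : Divisor k Ft}
    (hl : finrank k (riemannRochSpace E₀) = 1) (hdeg : Divisor.degree E₀ = g)
    (hle : E₀ ≤ Finsupp.mapDomain (rOf H) D) :
    (finrank K (riemannRochSpace D) : ℤ) = Divisor.degree D + 1 - g ∧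
      (finrank k (riemannRochSpace (Finsupp.mapDomain (rOf H) D)) : ℤ) =
        Divisor.degree D + 1 - g ∧
      redSpace R D = riemannRochSpace (Finsupp.mapDomain (rOf H) D) := by
  have h0 := finrank_special_of_le H hl hdeg hle
  rw [degree_mapDomain' (rOf H) H.degF H.degFt D] at h0
  obtain ⟨h1, h2⟩ := dims_of_special H D h0
  exact ⟨h1, h0, h2⟩

/-- **dimension count at a chart**: if `r_* D ≥ Σ Q_i` for a chart `𝔠` with `n = g` points, then
`l(D) = l(r_* D) = deg D + 1 - g` and the reduction `L(D) ∩ Rw → L(r_* D)` is onto. -/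
theorem dims_of_chart_le (H : LSpaceHyp R g c) {n : ℕ} (hn : (n : ℤ) = g) (𝔠 : Chart H n)
    (D : Divisor K F)
    (hle : (∑ i, Finsupp.single (𝔠.Q i) (1 : ℤ)) ≤ Finsupp.mapDomain (rOf H) D) :
    (finrank K (riemannRochSpace D) : ℤ) = Divisor.degree D + 1 - g ∧
      (finrank k (riemannRochSpace (Finsupp.mapDomain (rOf H) D)) : ℤ) =
        Divisor.degree D + 1 - g ∧
      redSpace R D = riemannRochSpace (Finsupp.mapDomain (rOf H) D) := by
  refine dims_of_special_le H D 𝔠.hns ?_ hle
  rw [map_sum]
  simp only [Divisor.degree_single, H.degFt]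
  rw [Finset.sum_const, Finset.card_univ, Fintype.card_fin, nsmul_eq_mul, ← hn]
  push_cast
  ring

/-- if the reduction is onto `L(r_* D)` and `r_* D ≥ 0`, the constant `1` lifts. -/
theorem exists_lift_one {D : Divisor K F} {E : Divisor k Ft} (hE : 0 ≤ E)
    (hred : redSpace R D = riemannRochSpace E) :
    ∃ e₀ : R.Rw, (e₀ : F) ∈ riemannRochSpace D ∧ R.red e₀ = 1 := by
  have h1 : (1 : Ft) ∈ redSpace R D := by
    rw [hred]; exact one_mem_riemannRochSpace hE
  exact mem_redSpace.mp h1

/-! ### the packaged form for the four UPFV spaces -/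

/-- the reduced chart divisor `Σ Q_i` is effective. -/
theorem chartDiv_nonneg (H : LSpaceHyp R g c) {n : ℕ} (𝔠 : Chart H n) :
    (0 : Divisor k Ft) ≤ ∑ i, Finsupp.single (𝔠.Q i) (1 : ℤ) :=
  Finset.sum_nonneg fun _ _ => Finsupp.single_nonneg.mpr zero_le_one

/-- `Σ Q_i ≤ p • Σ Q_i` for `1 ≤ p`. -/
theorem chartDiv_le_nsmul (H : LSpaceHyp R g c) {n : ℕ} (𝔠 : Chart H n) {p : ℕ} (hp : 1 ≤ p) :
    (∑ i, Finsupp.single (𝔠.Q i) (1 : ℤ)) ≤ p • ∑ i, Finsupp.single (𝔠.Q i) (1 : ℤ) := by
  have h0 := chartDiv_nonneg H 𝔠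
  obtain ⟨q, rfl⟩ : ∃ q, p = q + 1 := ⟨p - 1, by omega⟩
  rw [succ_nsmul]
  exact le_add_of_nonneg_left (nsmul_nonneg h0 q)

/-- a pair `P - P'` with the same reduction pushes forward to `0`. -/
theorem mapDomain_pair (H : LSpaceHyp R g c) {P P' : Place K F} (h : rOf H P = rOf H P') :
    Finsupp.mapDomain (rOf H) (Finsupp.single P (1 : ℤ) - Finsupp.single P' (1 : ℤ)) = 0 := by
  rw [Finsupp.mapDomain_sub, Finsupp.mapDomain_single, Finsupp.mapDomain_single, h, sub_self]

/-- push-forward of `p • D0 + P - P'`. -/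
theorem mapDomain_nsmul_D0_add_pair (H : LSpaceHyp R g c) {n : ℕ} (𝔠 : Chart H n) (p : ℕ)
    {P P' : Place K F} (h : rOf H P = rOf H P') :
    Finsupp.mapDomain (rOf H)
        (p • 𝔠.D0 + (Finsupp.single P (1 : ℤ) - Finsupp.single P' (1 : ℤ))) =
      p • ∑ i, Finsupp.single (𝔠.Q i) (1 : ℤ) := by
  rw [Finsupp.mapDomain_add, mapDomain_pair H h, add_zero, ← Finsupp.mapDomain.addMonoidHom_apply,
    map_nsmul, Finsupp.mapDomain.addMonoidHom_apply, AuxData.mapDomain_D0]

/-- **the packaged dimension count**: if `r_* D = E ≥ Σ Q_i` for a chart `𝔠` with `n = g` points then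
`l(D) = l(E) = deg D + 1 - g`, the reduction `L(D) ∩ Rw → L(E)` is onto, and `1` lifts. -/
theorem dims_of_mapDomain_eq (H : LSpaceHyp R g c) {n : ℕ} (hn : (n : ℤ) = g) (𝔠 : Chart H n)
    {D : Divisor K F} {E : Divisor k Ft} (hmap : Finsupp.mapDomain (rOf H) D = E)
    (hle : (∑ i, Finsupp.single (𝔠.Q i) (1 : ℤ)) ≤ E) :
    (finrank K (riemannRochSpace D) : ℤ) = Divisor.degree D + 1 - g ∧
      (finrank k (riemannRochSpace E) : ℤ) = Divisor.degree D + 1 - g ∧
      redSpace R D = riemannRochSpace E ∧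
      ∃ e₀ : R.Rw, (e₀ : F) ∈ riemannRochSpace D ∧ R.red e₀ = 1 := by
  subst hmap
  obtain ⟨h1, h2, h3⟩ := dims_of_chart_le H hn 𝔠 D hle
  exact ⟨h1, h2, h3, exists_lift_one (le_trans (chartDiv_nonneg H 𝔠) hle) h3⟩

/-! ### lattice bases with a prescribed first vector -/

omit [FiniteResidues k Ft] [HasPrincipalDivisors k Ft] [Nonempty (Place k Ft)] in
/-- `redSpace R D` is finite-dimensional, EVERY divisor `D`. -/
theorem finite_redSpace' (H : LSpaceHyp R g c) (D : Divisor K F) :
    Module.Finite k (redSpace R D) := by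
  by_cases hbot : redSpace R D = ⊥
  · rw [hbot]; infer_instance
  · have h1 : 0 < finrank k (redSpace R D) := by
      obtain ⟨x, hx, hx0⟩ := (Submodule.ne_bot_iff _).mp hbot
      have : Nontrivial (redSpace R D) := ⟨⟨⟨x, hx⟩, 0, fun h => hx0 (congrArg Subtype.val h)⟩⟩
      by_contra hcon
      have h0 : finrank K (riemannRochSpace D) = 0 := by
        rw [← finrank_redSpace_eq H D]; omega
      have hb : riemannRochSpace D = ⊥ := Submodule.finrank_eq_zero.mp h0
      obtain ⟨y, hyD, rfl⟩ := mem_redSpace.mp hx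
      rw [hb, Submodule.mem_bot] at hyD
      exact hx0 (by rw [show y = 0 from Subtype.ext hyD, map_zero])
    exact Module.finite_of_finrank_pos h1

omit [FiniteResidues k Ft] [HasPrincipalDivisors k Ft] [Nonempty (Place k Ft)] in
/-- **lattice basis with a prescribed first vector**, EVERY divisor `D`: given `e₀ ∈ L(D) ∩ Rw` with
`red e₀ ≠ 0` there are `b_0 = e₀, b_1, …, b_m ∈ L(D) ∩ Rw` (`m + 1 = l(D)`) whose reductions form a
`k`-basis of `redSpace R D`, which form a `K`-basis of `L(D)`, with the Gauss-norm property. -/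
theorem exists_latticeBasis_first (H : LSpaceHyp R g c) (D : Divisor K F) (e₀ : R.Rw)
    (he₀ : (e₀ : F) ∈ riemannRochSpace D) (hred : R.red e₀ ≠ 0) :
    ∃ (m : ℕ) (b : Fin (m + 1) → R.Rw),
      b 0 = e₀ ∧
      m + 1 = finrank K (riemannRochSpace D) ∧
      (∀ j, (b j : F) ∈ riemannRochSpace D) ∧
      LinearIndependent k (fun j => R.red (b j)) ∧
      Submodule.span k (Set.range fun j => R.red (b j)) = redSpace R D ∧
      LinearIndependent K (fun j => (b j : F)) ∧
      Submodule.span K (Set.range fun j => (b j : F)) = riemannRochSpace D ∧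
      (∀ a : Fin (m + 1) → K, (∑ j, a j • (b j : F)) ∈ R.Rw ↔ ∀ j, a j ∈ R.A) := by
  classical
  have hfin : Module.Finite k (redSpace R D) := finite_redSpace' H D
  set W : Submodule k Ft := redSpace R D with hW
  set v₀ : Ft := R.red e₀ with hv₀
  have hv₀W : v₀ ∈ W := mem_redSpace.mpr ⟨e₀, he₀, rfl⟩
  set p : Submodule k Ft := Submodule.span k {v₀} with hp
  have hpW : p ≤ W := by
    rw [hp, Submodule.span_le, Set.singleton_subset_iff]; exact hv₀W
  -- a complement of `k v₀` inside `W`
  obtain ⟨q₀, hq₀⟩ := Submodule.exists_isCompl p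
  set q : Submodule k Ft := q₀ ⊓ W with hq
  have hqW : q ≤ W := inf_le_right
  have hpq : p ⊓ q = ⊥ := by
    rw [eq_bot_iff, hq, ← inf_assoc, hq₀.inf_eq_bot]; exact inf_le_left
  have hpq' : p ⊔ q = W := by
    rw [hq, ← sup_inf_assoc_of_le q₀ hpW, hq₀.sup_eq_top, top_inf_eq]
  have hqfin : Module.Finite k q := Submodule.finiteDimensional_of_le hqW
  set m := finrank k q with hm
  let B := Module.finBasis k q
  -- lift the basis vectors of `q`
  have hlift : ∀ j : Fin m, ∃ x : R.Rw, (x : F) ∈ riemannRochSpace D ∧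
      R.red x = ((B j : q) : Ft) := fun j => mem_redSpace.mp (hqW (B j).2)
  choose b' hb'D hb'red using hlift
  set b : Fin (m + 1) → R.Rw := Fin.cons e₀ b' with hb
  have hb0 : b 0 = e₀ := by rw [hb, Fin.cons_zero]
  have hbD : ∀ j, (b j : F) ∈ riemannRochSpace D := by
    intro j
    refine Fin.cases ?_ (fun i => ?_) j
    · rw [hb0]; exact he₀
    · rw [hb, Fin.cons_succ]; exact hb'D i
  have hredb : (fun j => R.red (b j)) = Fin.cons v₀ (fun j => ((B j : q) : Ft)) := by
    funext j
    refine Fin.cases ?_ (fun i => ?_) j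
    · rw [hb0, Fin.cons_zero]
    · rw [hb, Fin.cons_succ, Fin.cons_succ]; exact hb'red i
  have hBrange : Submodule.span k (Set.range fun j => ((B j : q) : Ft)) = q := by
    have h1 : (fun j => ((B j : q) : Ft)) = q.subtype ∘ B := rfl
    rw [h1, Set.range_comp, Submodule.span_image, B.span_eq, Submodule.map_top,
      Submodule.range_subtype]
  have hbk : LinearIndependent k (fun j => R.red (b j)) := by
    rw [hredb, linearIndependent_finCons]
    refine ⟨B.linearIndependent.map' q.subtype (Submodule.ker_subtype _), ?_⟩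
    rw [hBrange]
    intro hmem
    have h1 : v₀ ∈ p ⊓ q := ⟨Submodule.mem_span_singleton_self v₀, hmem⟩
    rw [hpq, Submodule.mem_bot] at h1
    exact hred h1
  have hspank : Submodule.span k (Set.range fun j => R.red (b j)) = redSpace R D := by
    rw [hredb, Fin.range_cons, Set.insert_eq, Submodule.span_union, hBrange, ← hp, hpq']
  have hbK := linearIndependent_of_red b hbk
  have hmK : m + 1 = finrank K (riemannRochSpace D) := by
    rw [← finrank_redSpace_eq H D, ← hspank, finrank_span_eq_card hbk, Fintype.card_fin]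
  have hspanK : Submodule.span K (Set.range fun j => (b j : F)) = riemannRochSpace D := by
    refine Submodule.eq_of_le_of_finrank_eq ?_ ?_
    · rw [Submodule.span_le]
      rintro _ ⟨j, rfl⟩
      exact hbD j
    · rw [finrank_span_eq_card hbK, Fintype.card_fin, hmK]
  refine ⟨m, b, hb0, hmK, hbD, hbk, hspank, hbK, hspanK, fun a => ⟨?_, ?_⟩⟩
  · exact gauss_of_linearIndependent_red b hbk a
  · intro ha
    refine Subring.sum_mem _ fun j _ => ?_
    have := (smulA R ⟨a j, ha j⟩ (b j)).2
    rwa [coe_smulA] at this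

/-! ### coordinates -/

omit [FiniteResidues K F] [HasPrincipalDivisors K F] [Nonempty (Place K F)]
  [FiniteResidues k Ft] [HasPrincipalDivisors k Ft] [Nonempty (Place k Ft)] [Infinite k] in
/-- **coordinates in a lattice basis**: an element of `span_K b ∩ Rw` has coordinates in `R.A`, and
the coordinates of its reduction are the reductions of its coordinates. -/
theorem exists_coords {m : ℕ} (b : Fin m → R.Rw)
    (hgauss : ∀ a : Fin m → K, (∑ j, a j • (b j : F)) ∈ R.Rw → ∀ j, a j ∈ R.A)
    (y : R.Rw) (hy : (y : F) ∈ Submodule.span K (Set.range fun j => (b j : F))) :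
    ∃ a : Fin m → R.A, (y : F) = ∑ j, ((a j : R.A) : K) • (b j : F) ∧
      R.red y = ∑ j, R.res (a j) • R.red (b j) := by
  obtain ⟨a, ha⟩ := (Submodule.mem_span_range_iff_exists_fun K).mp hy
  have hmem : (∑ j, a j • (b j : F)) ∈ R.Rw := by rw [ha]; exact y.2
  have haA := hgauss a hmem
  refine ⟨fun j => ⟨a j, haA j⟩, ha.symm, ?_⟩
  exact red_eq_sum_of_coe_eq R Finset.univ (fun j => ⟨a j, haA j⟩) b y ha.symm

omit [FiniteResidues K F] [HasPrincipalDivisors K F] [Nonempty (Place K F)]
  [FiniteResidues k Ft] [HasPrincipalDivisors k Ft] [Nonempty (Place k Ft)] [Infinite k] in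
/-- uniqueness of the coordinates. -/
theorem coords_unique {m : ℕ} (b : Fin m → R.Rw)
    (hbK : LinearIndependent K (fun j => (b j : F))) (a a' : Fin m → R.A)
    (h : ∑ j, ((a j : R.A) : K) • (b j : F) = ∑ j, ((a' j : R.A) : K) • (b j : F)) : a = a' := by
  funext j
  have h1 : ∑ j, (((a j : R.A) : K) - ((a' j : R.A) : K)) • (b j : F) = 0 := by
    simp only [sub_smul, Finset.sum_sub_distrib, h, sub_self]
  have h2 := Fintype.linearIndependent_iff.mp hbK _ h1 j
  exact Subtype.ext (sub_eq_zero.mp h2)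

end Fermat.Agent.GR.W.K2.Upfv.Spaces
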