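/-
GATE-R / S17 (W) — node GR-W-K2-UPFV-SETUP (helper68): the frame-side DATA PACKAGE of helper19's
chart-free K2 route (board 4799, `u ^ p = f * v` in FIXED L-spaces), in ONE existential.
Abstract frame of `GH/Vocab.lean`.

`exists_upfv_data` : for `P, P'` in the same residue disc there are two charts `𝔠, 𝔠''` with disjoint
supports and lattice families
  `μ` of `L(G + G'') ∩ Rw` (`μ 0 = 1`), `φ` of `L(p G + P − P') ∩ Rw` (`red (φ 0) = 1`),
  `ν` of `L(p G'' + P' − P) ∩ Rw` (`red (ν 0) = 1`), `ω` of `L(p G + p G'') ∩ Rw`,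
with `#μ − 1 + #φ − 1 + #ν = #ω` (the system is SQUARE), reductions `k`-linearly independent and in
the L-spaces of `SpecialJac.jac_injective`, and the Gauss property for `ω`.
-/
import Mathlib
import Fermat.Agent.GH.L.Final
import Fermat.Agent.GR.W.K2.Upfv.Spaces
import Fermat.Agent.GR.W.K2.Upfv.Book

set_option autoImplicit false
set_option linter.unusedSectionVars false

noncomputable section

open AlgebraicCurve Module

namespace Fermat.Agent.GR.W.K2.Upfv.Setup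

open Fermat.Agent.RRh45 Fermat.Agent.GJ.S37MinDiv Fermat.Agent.GJ.J1 Fermat.Agent.GJ.S37LSpace
  Fermat.Agent.GJ.S37ROfSurj Fermat.Agent.GH Fermat.Agent.GH.L Fermat.Agent.GR.W.K2.LatticeBasis
  Fermat.Agent.GR.W.K2.Upfv.Spaces

variable {K F k Ft : Type*} [Field K] [Field F] [Algebra K F] [Field k] [Field Ft] [Algebra k Ft]
variable {R : RedData K F k Ft} {g c : ℤ}
variable [FiniteResidues K F] [HasPrincipalDivisors K F] [Nonempty (Place K F)]
variable [FiniteResidues k Ft] [HasPrincipalDivisors k Ft] [Nonempty (Place k Ft)]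
variable [Infinite k]

/-- push-forward of `p • D0`. -/
theorem mapDomain_nsmul_D0 (H : LSpaceHyp R g c) {n : ℕ} (𝔠 : Chart H n) (p : ℕ) :
    Finsupp.mapDomain (rOf H) (p • 𝔠.D0) = p • ∑ i, Finsupp.single (𝔠.Q i) (1 : ℤ) := by
  rw [← Finsupp.mapDomain.addMonoidHom_apply, map_nsmul, Finsupp.mapDomain.addMonoidHom_apply,
    AuxData.mapDomain_D0]

/-- reductions of lattice vectors lie in the reduced space. -/
theorem red_mem_of_redSpace_eq {D : Divisor K F} {E : Divisor k Ft}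
    (hred : redSpace R D = riemannRochSpace E) {x : R.Rw} (hx : (x : F) ∈ riemannRochSpace D) :
    R.red x ∈ riemannRochSpace E := by
  rw [← hred]; exact mem_redSpace.mpr ⟨x, hx, rfl⟩

/-- **the UPFV data package.** -/
theorem exists_upfv_data (H : LSpaceHyp R g c) {n : ℕ} (hn : (n : ℤ) = g) {p : ℕ} (hp : 1 ≤ p)
    {P P' : Place K F} (hPP' : rOf H P = rOf H P') :
    ∃ (𝔠 𝔠'' : Chart H n), Disjoint 𝔠.supp 𝔠''.supp ∧
    ∃ (a b e d : ℕ) (μ : Fin (a + 1) → R.Rw) (φ : Fin (b + 1) → R.Rw) (ν : Fin (e + 1) → R.Rw)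
      (ω : Fin d → R.Rw),
      a + b + (e + 1) = d ∧ μ 0 = 1 ∧ R.red (φ 0) = 1 ∧ R.red (ν 0) = 1 ∧
      (∀ i, (μ i : F) ∈ riemannRochSpace (𝔠.D0 + 𝔠''.D0)) ∧
      (∀ i, (φ i : F) ∈
        riemannRochSpace (p • 𝔠.D0 + Finsupp.single P 1 - Finsupp.single P' 1)) ∧
      (∀ j, (ν j : F) ∈
        riemannRochSpace (p • 𝔠''.D0 + Finsupp.single P' 1 - Finsupp.single P 1)) ∧
      (∀ m, (ω m : F) ∈ riemannRochSpace (p • 𝔠.D0 + p • 𝔠''.D0)) ∧
      (∀ i, R.red (μ i) ∈ riemannRochSpace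
        ((∑ i, Finsupp.single (𝔠.Q i) (1 : ℤ)) + ∑ i, Finsupp.single (𝔠''.Q i) (1 : ℤ))) ∧
      (∀ i, R.red (φ i) ∈ riemannRochSpace (p • ∑ i, Finsupp.single (𝔠.Q i) (1 : ℤ))) ∧
      (∀ j, R.red (ν j) ∈ riemannRochSpace (p • ∑ i, Finsupp.single (𝔠''.Q i) (1 : ℤ))) ∧
      (∀ m, R.red (ω m) ∈ riemannRochSpace
        ((p • ∑ i, Finsupp.single (𝔠.Q i) (1 : ℤ)) +
          p • ∑ i, Finsupp.single (𝔠''.Q i) (1 : ℤ))) ∧
      LinearIndependent k (fun i => R.red (μ i)) ∧ LinearIndependent k (fun i => R.red (φ i)) ∧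
      LinearIndependent k (fun j => R.red (ν j)) ∧ LinearIndependent k (fun m => R.red (ω m)) ∧
      Submodule.span K (Set.range fun m => (ω m : F)) =
        riemannRochSpace (p • 𝔠.D0 + p • 𝔠''.D0) ∧
      LinearIndependent K (fun m => (ω m : F)) ∧
      (∀ t : Fin d → K, (∑ m, t m • (ω m : F)) ∈ R.Rw ↔ ∀ m, t m ∈ R.A) ∧
      finrank k (riemannRochSpace (∑ i, Finsupp.single (𝔠.Q i) (1 : ℤ))) = 1 ∧
      finrank k (riemannRochSpace (∑ i, Finsupp.single (𝔠''.Q i) (1 : ℤ))) = 1 ∧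
      (∀ Q : Place k Ft, (∑ i, Finsupp.single (𝔠.Q i) (1 : ℤ)) Q = 0 ∨
        (∑ i, Finsupp.single (𝔠''.Q i) (1 : ℤ)) Q = 0) := by
  classical
  -- two charts with disjoint supports
  obtain ⟨ch, -, hch⟩ := exists_charts_disjoint_main H (le_of_eq hn) (∅ : Finset (Place k Ft)) 2
  set 𝔠 : Chart H n := ch 0 with h𝔠
  set 𝔠'' : Chart H n := ch 1 with h𝔠''
  have hdisj : Disjoint 𝔠.supp 𝔠''.supp := hch 0 1 (by decide)
  refine ⟨𝔠, 𝔠'', hdisj, ?_⟩
  set Gt : Divisor k Ft := ∑ i, Finsupp.single (𝔠.Q i) (1 : ℤ) with hGt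
  set Gt'' : Divisor k Ft := ∑ i, Finsupp.single (𝔠''.Q i) (1 : ℤ) with hGt''
  have hGt0 : 0 ≤ Gt := chartDiv_nonneg H 𝔠
  have hGt''0 : 0 ≤ Gt'' := chartDiv_nonneg H 𝔠''
  have hG0 : 0 ≤ 𝔠.D0 := AuxData.D0_nonneg 𝔠
  have hG''0 : 0 ≤ 𝔠''.D0 := AuxData.D0_nonneg 𝔠''
  have hdegG : Divisor.degree 𝔠.D0 = n := AuxData.degree_D0 𝔠
  have hdegG'' : Divisor.degree 𝔠''.D0 = n := AuxData.degree_D0 𝔠''
  have hdegP : ∀ P₀ : Place K F, Divisor.degree (Finsupp.single P₀ (1 : ℤ)) = 1 := fun P₀ => by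
    rw [Divisor.degree_single, H.degF P₀]; norm_num
  -- the four spaces
  have hmapU : Finsupp.mapDomain (rOf H) (𝔠.D0 + 𝔠''.D0) = Gt + Gt'' := by
    rw [Finsupp.mapDomain_add, AuxData.mapDomain_D0, AuxData.mapDomain_D0]
  have hmapF : Finsupp.mapDomain (rOf H)
      (p • 𝔠.D0 + Finsupp.single P 1 - Finsupp.single P' 1) = p • Gt := by
    rw [add_sub_assoc]; exact mapDomain_nsmul_D0_add_pair H 𝔠 p hPP'
  have hmapV : Finsupp.mapDomain (rOf H)
      (p • 𝔠''.D0 + Finsupp.single P' 1 - Finsupp.single P 1) = p • Gt'' := by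
    rw [add_sub_assoc]; exact mapDomain_nsmul_D0_add_pair H 𝔠'' p hPP'.symm
  have hmapW : Finsupp.mapDomain (rOf H) (p • 𝔠.D0 + p • 𝔠''.D0) = p • Gt + p • Gt'' := by
    rw [Finsupp.mapDomain_add, mapDomain_nsmul_D0, mapDomain_nsmul_D0]
  obtain ⟨hlU, -, hredU, -⟩ := dims_of_mapDomain_eq H hn 𝔠 hmapU
    (le_add_of_nonneg_right hGt''0)
  obtain ⟨hlF, -, hredF, eF, heF, heF1⟩ := dims_of_mapDomain_eq H hn 𝔠 hmapF
    (chartDiv_le_nsmul H 𝔠 hp)
  obtain ⟨hlV, -, hredV, eV, heV, heV1⟩ := dims_of_mapDomain_eq H hn 𝔠'' hmapV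
    (chartDiv_le_nsmul H 𝔠'' hp)
  obtain ⟨hlW, -, hredW, -⟩ := dims_of_mapDomain_eq H hn 𝔠 hmapW
    ((chartDiv_le_nsmul H 𝔠 hp).trans (le_add_of_nonneg_right (nsmul_nonneg hGt''0 p)))
  -- the lattice bases
  have h1U : ((1 : R.Rw) : F) ∈ riemannRochSpace (𝔠.D0 + 𝔠''.D0) := by
    simpa using one_mem_riemannRochSpace (add_nonneg hG0 hG''0)
  have hred1 : R.red (1 : R.Rw) ≠ 0 := by rw [map_one]; exact one_ne_zero
  obtain ⟨a, μ, hμ0, haK, hμD, hμk, -, -, -, -⟩ :=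
    exists_latticeBasis_first H (𝔠.D0 + 𝔠''.D0) 1 h1U hred1
  obtain ⟨b, φ, hφ0, hbK, hφD, hφk, -, -, -, -⟩ :=
    exists_latticeBasis_first H _ eF heF (by rw [heF1]; exact one_ne_zero)
  obtain ⟨e, ν, hν0, heK, hνD, hνk, -, -, -, -⟩ :=
    exists_latticeBasis_first H _ eV heV (by rw [heV1]; exact one_ne_zero)
  have hW0 : 0 ≤ p • 𝔠.D0 + p • 𝔠''.D0 :=
    add_nonneg (nsmul_nonneg hG0 p) (nsmul_nonneg hG''0 p)
  obtain ⟨d, ω, hdK, hωD, hωk, -, hωK, hωspan, hωgauss⟩ := exists_latticeBasis H hW0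
  refine ⟨a, b, e, d, μ, φ, ν, ω, ?_, hμ0, by rw [hφ0, heF1], by rw [hν0, heV1], hμD, hφD, hνD,
    hωD, fun i => red_mem_of_redSpace_eq hredU (hμD i),
    fun i => red_mem_of_redSpace_eq hredF (hφD i), fun j => red_mem_of_redSpace_eq hredV (hνD j),
    fun m => red_mem_of_redSpace_eq hredW (hωD m), hμk, hφk, hνk, hωk, hωspan, hωK, hωgauss,
    𝔠.hns, 𝔠''.hns, ?_⟩
  · -- the count
    have hdU : Divisor.degree (𝔠.D0 + 𝔠''.D0) = 2 * n := by
      rw [map_add, hdegG, hdegG'']; ring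
    have hdF : Divisor.degree (p • 𝔠.D0 + Finsupp.single P 1 - Finsupp.single P' 1) =
        (p : ℤ) * n := by
      rw [map_sub, map_add, map_nsmul, hdegG, hdegP, hdegP, nsmul_eq_mul]; ring
    have hdV : Divisor.degree (p • 𝔠''.D0 + Finsupp.single P' 1 - Finsupp.single P 1) =
        (p : ℤ) * n := by
      rw [map_sub, map_add, map_nsmul, hdegG'', hdegP, hdegP, nsmul_eq_mul]; ring
    have hdW : Divisor.degree (p • 𝔠.D0 + p • 𝔠''.D0) = 2 * ((p : ℤ) * n) := by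
      rw [map_add, map_nsmul, map_nsmul, hdegG, hdegG'', nsmul_eq_mul]; ring
    rw [hdU] at hlU
    rw [hdF] at hlF
    rw [hdV] at hlV
    rw [hdW] at hlW
    rw [← haK] at hlU
    rw [← hbK] at hlF
    rw [← heK] at hlV
    rw [← hdK] at hlW
    push_cast at hlU hlF hlV hlW
    have : ((a + b + (e + 1) : ℕ) : ℤ) = (d : ℤ) := by
      push_cast
      generalize (p : ℤ) * (n : ℤ) = X at *
      omega
    exact_mod_cast this
  · intro Q
    have h := Book.hdisj_of_charts H 𝔠 𝔠'' hdisj Q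
    rwa [AuxData.mapDomain_D0, AuxData.mapDomain_D0] at h

end Fermat.Agent.GR.W.K2.Upfv.Setup
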