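/-
GATE-R (S17) / node GR-W-K2-UPFV-SPECIALJAC (helper12): the special-fibre Jacobian lemma of the
chart-free route `u ^ p = f * v` for (K2) (helper19, board 4799).

On ONE function field `Ft / k` (any fields): `G, G₂ ≥ 0` with disjoint supports and
`L(G) = L(G₂) = k`.  If `du ∈ L(G + G₂)`, `df ∈ L(p • G)`, `dv ∈ L(p • G₂)`, `(p : k) ≠ 0` and
`p * du = df + dv`, then `du`, `df`, `dv` are constants.  Hence the linearised map
`(du, df, dv) ↦ p * du - df - dv` is injective on complements of the constants.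

Prelude only (`riemannRochSpace`, whose carrier is `∀ v, v.adicValuation f ≤ exp (D v)`).
-/
import Mathlib
import Fermat.Prelude.Def_AlgebraicCurve_Repartitions

set_option autoImplicit false

noncomputable section

open AlgebraicCurve WithZero

namespace Fermat.Agent.GR.W.K2.Upfv.SpecialJac

variable {k Ft : Type*} [Field k] [Field Ft] [Algebra k Ft]

/-- membership in `L(D)` in valuation form (definitional). -/
theorem mem_L_iff {D : Divisor k Ft} {f : Ft} :
    f ∈ riemannRochSpace D ↔ ∀ v : Place k Ft, v.adicValuation f ≤ exp (D v) := Iff.rfl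

/-- the nonzero natural number `p` (nonzero in `k`) is a unit at every place. -/
theorem adicValuation_natCast_mul (v : Place k Ft) (p : ℕ) (hp : (p : k) ≠ 0) (x : Ft) :
    v.adicValuation ((p : Ft) * x) = v.adicValuation x := by
  have h1 : (p : Ft) = algebraMap k Ft (p : k) := (map_natCast (algebraMap k Ft) p).symm
  have hle : v.adicValuation (algebraMap k Ft (p : k)) ≤ 1 := v.adicValuation_algebraMap_le_one _
  have hle' : v.adicValuation (algebraMap k Ft ((p : k)⁻¹)) ≤ 1 :=
    v.adicValuation_algebraMap_le_one _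
  have hmul : v.adicValuation (algebraMap k Ft (p : k)) *
      v.adicValuation (algebraMap k Ft ((p : k)⁻¹)) = 1 := by
    rw [← map_mul, ← map_mul, mul_inv_cancel₀ hp, map_one, map_one]
  have hone : v.adicValuation (algebraMap k Ft (p : k)) = 1 := by
    refine le_antisymm hle ?_
    calc (1 : ℤᵐ⁰) = v.adicValuation (algebraMap k Ft (p : k)) *
          v.adicValuation (algebraMap k Ft ((p : k)⁻¹)) := hmul.symm
      _ ≤ v.adicValuation (algebraMap k Ft (p : k)) * 1 := by gcongr
      _ = v.adicValuation (algebraMap k Ft (p : k)) := mul_one _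
  rw [map_mul, h1, hone, one_mul]

/-- **the Jacobian lemma, constants form.** -/
theorem const_of_jac {G G₂ : Divisor k Ft} (hG : 0 ≤ G) (hG₂ : 0 ≤ G₂)
    (hdisj : ∀ v : Place k Ft, G v = 0 ∨ G₂ v = 0)
    (hL : ∀ x ∈ riemannRochSpace G, ∃ a : k, x = algebraMap k Ft a)
    (hL₂ : ∀ x ∈ riemannRochSpace G₂, ∃ a : k, x = algebraMap k Ft a)
    (p : ℕ) (hp : (p : k) ≠ 0) {du df dv : Ft}
    (hdu : du ∈ riemannRochSpace (G + G₂)) (hdf : df ∈ riemannRochSpace (p • G))
    (hdv : dv ∈ riemannRochSpace (p • G₂)) (h : (p : Ft) * du = df + dv) :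
    (∃ a : k, df = algebraMap k Ft a) ∧ (∃ b : k, dv = algebraMap k Ft b) ∧
      (∃ c : k, du = algebraMap k Ft c) := by
  have hGv : ∀ v : Place k Ft, 0 ≤ G v := fun v => Finsupp.le_def.mp hG v
  have hG₂v : ∀ v : Place k Ft, 0 ≤ G₂ v := fun v => Finsupp.le_def.mp hG₂ v
  -- `df ∈ L(G)`
  have hdfG : df ∈ riemannRochSpace G := by
    rw [mem_L_iff]
    intro v
    rcases hdisj v with h0 | h0
    · -- `G v = 0`: use `df ∈ L(p • G)`
      have := hdf v
      rwa [Finsupp.smul_apply, h0, smul_zero, ← h0] at this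
    · -- `G₂ v = 0`: `df = p du - dv`
      have e : df = (p : Ft) * du - dv := by rw [h]; ring
      rw [e]
      refine (Valuation.map_sub _ _ _).trans (max_le ?_ ?_)
      · rw [adicValuation_natCast_mul v p hp]
        have := hdu v
        rwa [Finsupp.add_apply, h0, add_zero] at this
      · have := hdv v
        rw [Finsupp.smul_apply, h0, smul_zero] at this
        exact this.trans (exp_le_exp.mpr (hGv v))
  -- `dv ∈ L(G₂)`
  have hdvG : dv ∈ riemannRochSpace G₂ := by
    rw [mem_L_iff]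
    intro v
    rcases hdisj v with h0 | h0
    · -- `G v = 0`: `dv = p du - df`
      have e : dv = (p : Ft) * du - df := by rw [h]; ring
      rw [e]
      refine (Valuation.map_sub _ _ _).trans (max_le ?_ ?_)
      · rw [adicValuation_natCast_mul v p hp]
        have := hdu v
        rwa [Finsupp.add_apply, h0, zero_add] at this
      · have := hdf v
        rw [Finsupp.smul_apply, h0, smul_zero] at this
        exact this.trans (exp_le_exp.mpr (hG₂v v))
    · have := hdv v
      rwa [Finsupp.smul_apply, h0, smul_zero, ← h0] at this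
  obtain ⟨a, ha⟩ := hL df hdfG
  obtain ⟨b, hb⟩ := hL₂ dv hdvG
  refine ⟨⟨a, ha⟩, ⟨b, hb⟩, ⟨(p : k)⁻¹ * (a + b), ?_⟩⟩
  have hpF : (p : Ft) ≠ 0 := by
    rw [← map_natCast (algebraMap k Ft) p]
    exact (map_ne_zero_iff _ (algebraMap k Ft).injective).mpr hp
  have : du = (p : Ft)⁻¹ * (df + dv) := by
    rw [← h, inv_mul_cancel_left₀ hpF]
  rw [this, ha, hb, map_mul, map_inv₀, map_add, map_natCast]

/-- `1 ∈ L(G)` for `G ≥ 0`. -/
theorem one_mem_L {G : Divisor k Ft} (hG : 0 ≤ G) : (1 : Ft) ∈ riemannRochSpace G := by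
  rw [mem_L_iff]
  intro v
  rw [map_one]
  exact (exp_zero (M := ℤ)).symm.le.trans (exp_le_exp.mpr (Finsupp.le_def.mp hG v))

/-- `l(G) = 1` and `G ≥ 0`: every element of `L(G)` is a constant. -/
theorem forall_const_of_finrank_eq_one {G : Divisor k Ft} (hG : 0 ≤ G)
    (h1 : Module.finrank k (riemannRochSpace G) = 1) :
    ∀ x ∈ riemannRochSpace G, ∃ a : k, x = algebraMap k Ft a := by
  intro x hx
  have hone : (⟨1, one_mem_L hG⟩ : riemannRochSpace G) ≠ 0 := by
    intro h0
    exact one_ne_zero (congrArg Subtype.val h0)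
  obtain ⟨a, ha⟩ := (finrank_eq_one_iff_of_nonzero' _ hone).mp h1 ⟨x, hx⟩
  refine ⟨a, ?_⟩
  have := congrArg Subtype.val ha
  simp only [Submodule.coe_smul] at this
  rw [← this, Algebra.smul_def, mul_one]

/-- **the Jacobian lemma, injectivity form**: the linearised system
`p * (Σ_{i ≥ 1} x_i μ_i) = Σ_{i ≥ 1} y_i φ_i + Σ_j z_j ν_j` (with `μ 0 = φ 0 = 1`, the three families
linearly independent in `L(G + G₂)`, `L(p • G)`, `L(p • G₂)`) has only the zero solution. -/
theorem jac_injective {G G₂ : Divisor k Ft} (hG : 0 ≤ G) (hG₂ : 0 ≤ G₂)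
    (hdisj : ∀ v : Place k Ft, G v = 0 ∨ G₂ v = 0)
    (hL : ∀ x ∈ riemannRochSpace G, ∃ a : k, x = algebraMap k Ft a)
    (hL₂ : ∀ x ∈ riemannRochSpace G₂, ∃ a : k, x = algebraMap k Ft a)
    (p : ℕ) (hp : (p : k) ≠ 0) {m n l : ℕ}
    (μ : Fin (m + 1) → Ft) (φ : Fin (n + 1) → Ft) (ν : Fin l → Ft)
    (hμ0 : μ 0 = 1) (hφ0 : φ 0 = 1)
    (hμ : LinearIndependent k μ) (hφ : LinearIndependent k φ) (hν : LinearIndependent k ν)
    (hμL : ∀ i, μ i ∈ riemannRochSpace (G + G₂)) (hφL : ∀ i, φ i ∈ riemannRochSpace (p • G))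
    (hνL : ∀ j, ν j ∈ riemannRochSpace (p • G₂))
    (x : Fin m → k) (y : Fin n → k) (z : Fin l → k)
    (h : (p : Ft) * ∑ i, x i • μ i.succ = ∑ i, y i • φ i.succ + ∑ j, z j • ν j) :
    x = 0 ∧ y = 0 ∧ z = 0 := by
  have hdu : (∑ i, x i • μ i.succ) ∈ riemannRochSpace (G + G₂) :=
    Submodule.sum_mem _ fun i _ => Submodule.smul_mem _ _ (hμL _)
  have hdf : (∑ i, y i • φ i.succ) ∈ riemannRochSpace (p • G) :=
    Submodule.sum_mem _ fun i _ => Submodule.smul_mem _ _ (hφL _)
  have hdv : (∑ j, z j • ν j) ∈ riemannRochSpace (p • G₂) :=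
    Submodule.sum_mem _ fun j _ => Submodule.smul_mem _ _ (hνL _)
  obtain ⟨⟨a, ha⟩, -, ⟨c, hc⟩⟩ := const_of_jac hG hG₂ hdisj hL hL₂ p hp hdu hdf hdv h
  -- a combination of `v 1, …` equal to a multiple of `v 0 = 1` vanishes
  have key : ∀ {r : ℕ} (w : Fin (r + 1) → Ft), w 0 = 1 → LinearIndependent k w →
      ∀ (t : Fin r → k) (b : k), (∑ i, t i • w i.succ) = algebraMap k Ft b → t = 0 ∧ b = 0 := by
    intro r w hw0 hw t b hb
    have hsum : ∑ i : Fin (r + 1), (Fin.cons (-b) t : Fin (r + 1) → k) i • w i = 0 := by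
      rw [Fin.sum_univ_succ]
      simp only [Fin.cons_zero, Fin.cons_succ]
      rw [hb, hw0, Algebra.smul_def, mul_one, map_neg, neg_add_cancel]
    have hall := Fintype.linearIndependent_iff.mp hw _ hsum
    refine ⟨funext fun i => ?_, ?_⟩
    · have := hall i.succ
      simpa using this
    · have := hall 0
      simpa using this
  obtain ⟨hy, -⟩ := key φ hφ0 hφ y a ha
  obtain ⟨hx, -⟩ := key μ hμ0 hμ x c hc
  refine ⟨hx, hy, ?_⟩
  have hz : ∑ j, z j • ν j = 0 := by
    have h' := h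
    rw [hx, hy] at h'
    simpa using h'.symm
  exact funext fun j => Fintype.linearIndependent_iff.mp hν z hz j

end Fermat.Agent.GR.W.K2.Upfv.SpecialJac
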