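/-
GATE-R (S17) / W / K2, route UPFV (helper19): tools for the assembly.

* `exists_pointed_family` : an independent family of a finite-dimensional subspace with a
  prescribed nonzero first vector, of full cardinality.
* `prod_mem_riemannRochSpace` : a product of `m` elements of `L(D)` lies in `L(m • D)`.
* `dims` : above a non-special divisor of the special fibre, `l(D) = deg D + 1 − g` and the
  reduction of the lattice `L(D) ∩ Rw` is all of `L(r_* D)`.
-/
import Mathlib
import Fermat.Agent.GH.Vocab
import Fermat.Agent.GH.L.Semicont
import Fermat.Agent.GR.W.K2.AuxData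
import Fermat.Agent.GR.W.K2.LatticeBasis

set_option autoImplicit false

noncomputable section

open AlgebraicCurve Module

namespace Fermat.Agent.GR.W.K2.Upfv.Tools

open Fermat.Agent.RRh45 Fermat.Agent.GJ.S37MinDiv Fermat.Agent.GJ.J1 Fermat.Agent.GJ.S37LSpace
  Fermat.Agent.GJ.S37ROfSurj Fermat.Agent.GH Fermat.Agent.GH.L Fermat.Agent.GR.W.K2.AuxData

section LinearAlgebra

variable {k V : Type*} [Field k] [AddCommGroup V] [Module k V]

/-- an independent family of `W` of full cardinality whose first vector is prescribed. -/
theorem exists_pointed_family (W : Submodule k V) [FiniteDimensional k W] {w0 : V}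
    (hw0 : w0 ∈ W) (hne : w0 ≠ 0) :
    ∃ (m : ℕ) (B : Fin (m + 1) → V), m + 1 = finrank k W ∧ (∀ j, B j ∈ W) ∧ B 0 = w0 ∧
      LinearIndependent k B := by
  classical
  set w0' : W := ⟨w0, hw0⟩ with hw0'
  have hne' : w0' ≠ 0 := fun h => hne (congrArg Subtype.val h)
  obtain ⟨W', hW'⟩ := Submodule.exists_isCompl (Submodule.span k {w0'})
  let B' := Module.finBasis k W'
  have hfr : 1 + finrank k W' = finrank k W := by
    rw [← Submodule.finrank_add_eq_of_isCompl hW', finrank_span_singleton hne']
  set v : Fin (finrank k W') → V := fun i => ((B' i : W) : V) with hv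
  have hvli : LinearIndependent k v := by
    have h1 : LinearIndependent k (fun i => (B' i : W)) :=
      B'.linearIndependent.map' W'.subtype (Submodule.ker_subtype _)
    exact h1.map' W.subtype (Submodule.ker_subtype _)
  refine ⟨finrank k W', Fin.cons w0 v, by omega, ?_, by simp, ?_⟩
  · intro j
    refine Fin.cases ?_ (fun i => ?_) j
    · simpa using hw0
    · simp only [Fin.cons_succ, hv]
      exact (B' i : W).2
  · rw [linearIndependent_finCons]
    refine ⟨hvli, fun hmem => ?_⟩
    have hle : Submodule.span k (Set.range v) ≤ Submodule.map W.subtype W' := by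
      rw [Submodule.span_le]
      rintro _ ⟨i, rfl⟩
      exact ⟨(B' i : W), (B' i).2, rfl⟩
    obtain ⟨y, hyW', hy⟩ := hle hmem
    have hyeq : y = w0' := Subtype.ext hy
    rw [hyeq] at hyW'
    have hbot : w0' ∈ Submodule.span k {w0'} ⊓ W' :=
      ⟨Submodule.mem_span_singleton_self _, hyW'⟩
    rw [hW'.inf_eq_bot, Submodule.mem_bot] at hbot
    exact hne' hbot

end LinearAlgebra

section Products

variable {K F : Type*} [Field K] [Field F] [Algebra K F]

theorem prod_mem_riemannRochSpace {ι : Type*} (s : Finset ι) (x : ι → F) (D : Divisor K F)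
    (hx : ∀ i ∈ s, x i ∈ riemannRochSpace D) :
    ∏ i ∈ s, x i ∈ riemannRochSpace (s.card • D) := by
  classical
  induction s using Finset.induction_on with
  | empty =>
    rw [Finset.prod_empty, Finset.card_empty, zero_smul]
    exact one_mem_riemannRochSpace le_rfl
  | insert a s ha ih =>
    rw [Finset.prod_insert ha, Finset.card_insert_of_notMem ha, add_smul, one_smul, add_comm]
    exact mul_mem_riemannRochSpace_add (hx a (Finset.mem_insert_self a s))
      (ih fun i hi => hx i (Finset.mem_insert_of_mem hi))

end Products

section Dims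

variable {K F k Ft : Type*} [Field K] [Field F] [Algebra K F] [Field k] [Field Ft] [Algebra k Ft]
variable {R : RedData K F k Ft} {g c : ℤ}
variable [FiniteResidues K F] [HasPrincipalDivisors K F] [Nonempty (Place K F)]
variable [FiniteResidues k Ft] [HasPrincipalDivisors k Ft] [Nonempty (Place k Ft)]
variable [Infinite k]

/-- above a non-special divisor `G0` of degree `g` on the special fibre: exact dimension of `L(D)`
and surjectivity of the reduction of the lattice. -/
theorem dims (H : LSpaceHyp R g c) (D : Divisor K F) (G0 : Divisor k Ft)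
    (hG0 : finrank k (riemannRochSpace G0) = 1) (hdegG0 : Divisor.degree G0 = g)
    (hle : G0 ≤ Finsupp.mapDomain (rOf H) D) :
    (finrank K (riemannRochSpace D) : ℤ) = Divisor.degree D + 1 - g ∧
      redSpace R D = riemannRochSpace (Finsupp.mapDomain (rOf H) D) := by
  have h1 := riemann_ineq H D
  have h2 : (finrank K (riemannRochSpace D) : ℤ) ≤
      finrank k (riemannRochSpace (Finsupp.mapDomain (rOf H) D)) := by
    exact_mod_cast finrank_le_mapDomain H D
  have h3 := finrank_le_of_le (K := k) (F := Ft) hle
  have h4 := degree_mapDomain' (rOf H) H.degF H.degFt D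
  rw [hG0, h4, hdegG0] at h3
  have h5 : (finrank K (riemannRochSpace D) : ℤ) = Divisor.degree D + 1 - g := by
    push_cast at h3; omega
  refine ⟨h5, Submodule.eq_of_le_of_finrank_eq (Fermat.Agent.GH.L.redSpace_le H D) ?_⟩
  rw [finrank_redSpace_eq H D]
  have : (finrank k (riemannRochSpace (Finsupp.mapDomain (rOf H) D)) : ℤ) =
      finrank K (riemannRochSpace D) := by push_cast at h3; omega
  exact_mod_cast this.symm

end Dims

end Fermat.Agent.GR.W.K2.Upfv.Tools
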