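/-
GATE-R (S17) / W / K2, route UPFV (helper19): THE ABSTRACT PAIR THEOREM.

Frame of `GH/Vocab.lean` + `[IsAlgClosed K]`.  For places `P, P'` in the same residue disc and
`p ≥ 1` invertible in the residue field `k`, the class `[P − P']` is `p`-divisible in `Pic⁰`.

Assembly of: `Setup.exists_upfv_data` (helper68: charts + lattice families + square count),
`PolySys.exists_solution` (the polynomial system `u ^ p = f * v` + helper22's MvHensel),
`SpecialJac.jac_injective` (helper12: injectivity of the linearised system on the special fibre),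
`Book.exists_nsmul_eq_of_charts` (helper38: divisor bookkeeping).
-/
import Mathlib
import Fermat.Agent.GR.W.K2.Upfv.PolySys
import Fermat.Agent.GR.W.K2.Upfv.Setup
import Fermat.Agent.GR.W.K2.Upfv.SpecialJac
import Fermat.Agent.GR.W.K2.Upfv.Tools

set_option autoImplicit false
set_option maxHeartbeats 1000000

noncomputable section

open AlgebraicCurve Module IsLocalRing

namespace Fermat.Agent.GR.W.K2.Upfv.Main

open Fermat.Agent.RRh45 Fermat.Agent.GJ.S37MinDiv Fermat.Agent.GJ.J1 Fermat.Agent.GJ.S37LSpace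
  Fermat.Agent.GJ.S37ROfSurj Fermat.Agent.GH Fermat.Agent.GR.W.K2.LatticeBasis
  Fermat.Agent.GR.W.K2.Upfv

variable {K F k Ft : Type*} [Field K] [Field F] [Algebra K F] [Field k] [Field Ft] [Algebra k Ft]
variable {R : RedData K F k Ft} {g c : ℤ}

/-- `res t = 0` iff `t` lies in the maximal ideal of `A`. -/
theorem res_eq_zero_iff_mem (t : R.A) : R.res t = 0 ↔ t ∈ maximalIdeal R.A := by
  rw [res_eq_zero_iff, ValuationSubring.valuation_lt_one_iff]

theorem rho_eq (a : R.A) : PolySys.rho R.A (F := F) a = algebraMap K F (a : K) := rfl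

variable [FiniteResidues K F] [HasPrincipalDivisors K F] [Nonempty (Place K F)]
variable [FiniteResidues k Ft] [HasPrincipalDivisors k Ft] [Nonempty (Place k Ft)]
variable [Infinite k]

/-- **the abstract pair theorem** (K2, `hpair`): `[P − P']` is `p`-divisible when `P, P'` have the
same reduction. -/
theorem exists_nsmul_pair [IsAlgClosed K] (H : LSpaceHyp R g c) {n : ℕ} (hn : (n : ℤ) = g)
    {p : ℕ} (hp : 1 ≤ p) (hpk : (p : k) ≠ 0) {P P' : Place K F} (hPP' : rOf H P = rOf H P')
    (D : Divisor.degZero (K := K) (F := F))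
    (hD : (D : Divisor K F) = Finsupp.single P 1 - Finsupp.single P' 1) :
    ∃ y : Pic0 K F, p • y = Pic0.mk D := by
  classical
  obtain ⟨𝔠, 𝔠'', hdisj, a, b, e, d, μ, φ, ν, ω, hcount, hμ0, hφ0, hν0, hμD, hφD, hνD, hωD,
    hμL, hφL, hνL, -, hμk, hφk, hνk, hωk, hωspan, hωK, hωgauss, hns, hns'', hdisjQ⟩ :=
    Setup.exists_upfv_data H hn hp hPP'
  set Du : Divisor K F := 𝔠.D0 + 𝔠''.D0 with hDu
  set Df : Divisor K F := p • 𝔠.D0 + Finsupp.single P 1 - Finsupp.single P' 1 with hDf
  set Dv : Divisor K F := p • 𝔠''.D0 + Finsupp.single P' 1 - Finsupp.single P 1 with hDv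
  set DV : Divisor K F := p • 𝔠.D0 + p • 𝔠''.D0 with hDV
  have hDfv : Df + Dv = DV := by rw [hDf, hDv, hDV]; abel
  have hpDu : p • Du = DV := by rw [hDu, hDV, smul_add]
  -- coordinates in the lattice basis `ω`
  have hcoord : ∀ x : R.Rw, (x : F) ∈ riemannRochSpace DV →
      ∃ t : Fin d → R.A, (x : F) = ∑ m, ((t m : R.A) : K) • (ω m : F) ∧
        (R.red x = 0 → ∀ m, t m ∈ maximalIdeal R.A) := by
    intro x hx
    obtain ⟨t, ht, hred⟩ := Spaces.exists_coords ω (fun a h => (hωgauss a).mp h) x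
      (by rw [hωspan]; exact hx)
    refine ⟨t, ht, fun h0 m => ?_⟩
    rw [h0] at hred
    have := Fintype.linearIndependent_iff.mp hωk (fun m => R.res (t m)) hred.symm m
    exact (res_eq_zero_iff_mem (t m)).mp this
  -- the data of the polynomial system
  set μ0F : F := ((μ 0 : R.Rw) : F) with hμ0F
  set μF : Fin a → F := fun i => ((μ i.succ : R.Rw) : F) with hμF
  set φ0F : F := ((φ 0 : R.Rw) : F) with hφ0F
  set φF : Fin b → F := fun i => ((φ i.succ : R.Rw) : F) with hφF
  set νF : Fin (e + 1) → F := fun j => ((ν j : R.Rw) : F) with hνF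
  set ωF : Fin d → F := fun m => ((ω m : R.Rw) : F) with hωF
  set μR : Option (Fin a) → R.Rw := fun o => μ (o.elim 0 Fin.succ) with hμR
  set φR : Option (Fin b) → R.Rw := fun o => φ (o.elim 0 Fin.succ) with hφR
  have hμRF : ∀ o, PolySys.muO μ0F μF o = ((μR o : R.Rw) : F) := by
    intro o; cases o <;> rfl
  have hφRF : ∀ o, PolySys.phiO φ0F φF o = ((φR o : R.Rw) : F) := by
    intro o; cases o <;> rfl
  -- structure constants of the `p`-fold products
  have hdex : ∀ s : Fin p → Option (Fin a), ∃ t : Fin d → R.A,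
      ∏ r, PolySys.muO μ0F μF (s r) = ∑ m, ((t m : R.A) : K) • ωF m := by
    intro s
    have hmem : ((∏ r, μR (s r) : R.Rw) : F) ∈ riemannRochSpace DV := by
      rw [SubmonoidClass.coe_finsetProd, ← hpDu]
      have := Tools.prod_mem_riemannRochSpace (K := K) (Finset.univ : Finset (Fin p))
        (fun r => ((μR (s r) : R.Rw) : F)) Du (fun r _ => hμD _)
      rwa [Finset.card_univ, Fintype.card_fin] at this
    obtain ⟨t, ht, -⟩ := hcoord _ hmem
    refine ⟨t, ?_⟩
    rw [← ht, SubmonoidClass.coe_finsetProd]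
    exact Finset.prod_congr rfl fun r _ => hμRF _
  choose dfun hdfun using hdex
  -- structure constants of the products `φ * ν`
  have hcex : ∀ (o : Option (Fin b)) (j : Fin (e + 1)), ∃ t : Fin d → R.A,
      PolySys.phiO φ0F φF o * νF j = ∑ m, ((t m : R.A) : K) • ωF m := by
    intro o j
    have hmem : ((φR o * ν j : R.Rw) : F) ∈ riemannRochSpace DV := by
      rw [← hDfv]
      exact mul_mem_riemannRochSpace_add (hφD _) (hνD j)
    obtain ⟨t, ht, -⟩ := hcoord _ hmem
    refine ⟨t, ?_⟩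
    rw [← ht, hφRF]
    rfl
  choose cfun hcfun using hcex
  -- the approximate root
  have happrox : ∃ t : Fin d → R.A, (∀ m, t m ∈ maximalIdeal R.A) ∧
      μ0F ^ p - φ0F * νF 0 = ∑ m, ((t m : R.A) : K) • ωF m := by
    have h1 : ((μ 0 ^ p : R.Rw) : F) ∈ riemannRochSpace DV := by
      have h2 := hdfun (fun _ => none)
      have h3 : ∏ _r : Fin p, PolySys.muO μ0F μF none = ((μ 0 ^ p : R.Rw) : F) := by
        rw [Finset.prod_const, Finset.card_univ, Fintype.card_fin]
        rfl
      rw [← h3, h2, ← hωspan]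
      exact Submodule.sum_mem _ fun m _ => Submodule.smul_mem _ _
        (Submodule.subset_span ⟨m, rfl⟩)
    have h2 : ((φ 0 * ν 0 : R.Rw) : F) ∈ riemannRochSpace DV := by
      rw [← hDfv]
      exact mul_mem_riemannRochSpace_add (hφD _) (hνD _)
    have hmem : ((μ 0 ^ p - φ 0 * ν 0 : R.Rw) : F) ∈ riemannRochSpace DV := by
      rw [AddSubgroupClass.coe_sub]
      exact sub_mem h1 h2
    obtain ⟨t, ht, hred⟩ := hcoord _ hmem
    refine ⟨t, hred ?_, ?_⟩
    · rw [map_sub, map_pow, map_mul, hμ0, map_one, one_pow, hφ0, hν0, mul_one, sub_self]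
    · rw [← ht]; rfl
  -- injectivity of the linearised system modulo the maximal ideal
  have hG : (0 : Divisor k Ft) ≤ ∑ i, Finsupp.single (𝔠.Q i) (1 : ℤ) := Spaces.chartDiv_nonneg H 𝔠
  have hG'' : (0 : Divisor k Ft) ≤ ∑ i, Finsupp.single (𝔠''.Q i) (1 : ℤ) :=
    Spaces.chartDiv_nonneg H 𝔠''
  have hinj : ∀ (h : PolySys.Unk (Fin a) (Fin b) (Fin (e + 1)) → R.A) (t : Fin d → R.A),
      (∀ m, t m ∈ maximalIdeal R.A) →
      ∑ x, PolySys.rho R.A (h x) * ((p : F) * μ0F ^ (p - 1) *
          PolySys.dU (ιf := Fin b) (ιv := Fin (e + 1)) μF x -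
        (PolySys.dF (ιu := Fin a) (ιv := Fin (e + 1)) φF x * νF 0 +
          φ0F * PolySys.dV (ιu := Fin a) (ιf := Fin b) νF x)) =
          ∑ m, ((t m : R.A) : K) • ωF m →
      ∀ x, h x ∈ maximalIdeal R.A := by
    intro h t ht hE
    -- the three reduced vectors
    set dUR : R.Rw := ∑ i, smulA R (h (Sum.inl i)) (μ i.succ) with hdUR
    set dFR : R.Rw := ∑ i, smulA R (h (Sum.inr (Sum.inl i))) (φ i.succ) with hdFR
    set dVR : R.Rw := ∑ j, smulA R (h (Sum.inr (Sum.inr j))) (ν j) with hdVR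
    set Y : R.Rw := (p : R.Rw) * μ 0 ^ (p - 1) * dUR - dFR * ν 0 - φ 0 * dVR with hY
    have hYF : (Y : F) = ∑ m, ((t m : R.A) : K) • ωF m := by
      rw [← hE, Fintype.sum_sum_type, Fintype.sum_sum_type]
      simp only [PolySys.dU, PolySys.dF, PolySys.dV, Sum.elim_inl, Sum.elim_inr, mul_zero,
        zero_mul, add_zero, zero_add, sub_zero, zero_sub]
      rw [hY, AddSubgroupClass.coe_sub, AddSubgroupClass.coe_sub, Subring.coe_mul, Subring.coe_mul,
        Subring.coe_mul, Subring.coe_mul, Subring.coe_pow, Subring.coe_natCast, hdUR, hdFR, hdVR,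
        coe_sum_smulA, coe_sum_smulA, coe_sum_smulA, Finset.mul_sum, Finset.sum_mul,
        Finset.mul_sum]
      simp only [rho_eq, Algebra.smul_def]
      rw [sub_sub, sub_eq_add_neg, neg_add, ← Finset.sum_neg_distrib, ← Finset.sum_neg_distrib]
      congr 1
      · refine Finset.sum_congr rfl fun i _ => ?_
        ring
      · congr 1
        · refine Finset.sum_congr rfl fun i _ => ?_
          ring
        · refine Finset.sum_congr rfl fun j _ => ?_
          ring
    have hredY : R.red Y = 0 := by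
      have h1 := red_eq_sum_of_coe_eq R Finset.univ t ω Y hYF
      rw [h1]
      refine Finset.sum_eq_zero fun m _ => ?_
      rw [(res_eq_zero_iff_mem (t m)).mpr (ht m), zero_smul]
    have hredY' : (p : Ft) * ∑ i, R.res (h (Sum.inl i)) • R.red (μ i.succ) =
        ∑ i, R.res (h (Sum.inr (Sum.inl i))) • R.red (φ i.succ) +
          ∑ j, R.res (h (Sum.inr (Sum.inr j))) • R.red (ν j) := by
      have h1 : R.red Y = (p : Ft) * ∑ i, R.res (h (Sum.inl i)) • R.red (μ i.succ) -
          ∑ i, R.res (h (Sum.inr (Sum.inl i))) • R.red (φ i.succ) -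
            ∑ j, R.res (h (Sum.inr (Sum.inr j))) • R.red (ν j) := by
        rw [hY, map_sub, map_sub, map_mul, map_mul, map_mul, map_mul, map_pow, map_natCast, hμ0,
          map_one, one_pow, mul_one, hν0, mul_one, hφ0, one_mul, hdUR, hdFR, hdVR,
          red_sum_smulA, red_sum_smulA, red_sum_smulA]
      rw [hredY] at h1
      have h2 := sub_eq_zero.mp h1.symm
      have h3 := sub_eq_iff_eq_add.mp h2
      rw [h3, add_comm]
    obtain ⟨hx0, hy0, hz0⟩ := SpecialJac.jac_injective hG hG'' hdisjQ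
      (SpecialJac.forall_const_of_finrank_eq_one hG hns)
      (SpecialJac.forall_const_of_finrank_eq_one hG'' hns'') p hpk
      (fun i => R.red (μ i)) (fun i => R.red (φ i)) (fun j => R.red (ν j))
      (by rw [hμ0, map_one]) hφ0 hμk hφk hνk hμL hφL hνL
      (fun i => R.res (h (Sum.inl i))) (fun i => R.res (h (Sum.inr (Sum.inl i))))
      (fun j => R.res (h (Sum.inr (Sum.inr j)))) hredY'
    intro x
    rw [← res_eq_zero_iff_mem]
    rcases x with i | i | j
    · exact congrFun hx0 i
    · exact congrFun hy0 i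
    · exact congrFun hz0 j
  -- the exact solution
  have hcard : Fintype.card (PolySys.Unk (Fin a) (Fin b) (Fin (e + 1))) = Fintype.card (Fin d) := by
    simp only [Fintype.card_sum, Fintype.card_fin]
    omega
  obtain ⟨x, hxu, hxf, hxv0, hxv, hsol⟩ := PolySys.exists_solution R.A p dfun cfun μ0F μF φ0F φF νF ωF
    (0 : Fin (e + 1)) (Fintype.equivOfCardEq hcard) hωK hdfun hcfun happrox hinj
  -- back to `Rw`
  set uR : R.Rw := μ 0 + ∑ i, smulA R (x (Sum.inl i)) (μ i.succ) with huR
  set fR : R.Rw := φ 0 + ∑ i, smulA R (x (Sum.inr (Sum.inl i))) (φ i.succ) with hfR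
  set vR : R.Rw := ∑ j, smulA R (x (Sum.inr (Sum.inr j))) (ν j) with hvR
  have huF : (uR : F) = PolySys.uval R.A μ0F μF x := by
    rw [huR, Subring.coe_add, coe_sum_smulA, PolySys.uval]
    congr 1
    exact Finset.sum_congr rfl fun i _ => (PolySys.rho_mul_eq_smul R.A _ _).symm
  have hfF : (fR : F) = PolySys.fval R.A φ0F φF x := by
    rw [hfR, Subring.coe_add, coe_sum_smulA, PolySys.fval]
    congr 1
    exact Finset.sum_congr rfl fun i _ => (PolySys.rho_mul_eq_smul R.A _ _).symm
  have hvF : (vR : F) = PolySys.vval R.A νF x := by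
    rw [hvR, coe_sum_smulA, PolySys.vval]
    exact Finset.sum_congr rfl fun i _ => (PolySys.rho_mul_eq_smul R.A _ _).symm
  have hu1 : R.red uR = 1 := by
    rw [huR, map_add, red_sum_smulA, hμ0, map_one, Finset.sum_eq_zero, add_zero]
    intro i _
    rw [(res_eq_zero_iff_mem _).mpr (hxu i), zero_smul]
  have hf1 : R.red fR = 1 := by
    rw [hfR, map_add, red_sum_smulA, hφ0, Finset.sum_eq_zero, add_zero]
    intro i _
    rw [(res_eq_zero_iff_mem _).mpr (hxf i), zero_smul]
  have hv1 : R.red vR = 1 := by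
    rw [hvR, red_sum_smulA, Fin.sum_univ_succ, hν0, Finset.sum_eq_zero, add_zero]
    · have h1 : R.res (x (Sum.inr (Sum.inr 0)) - 1) = 0 := (res_eq_zero_iff_mem _).mpr hxv0
      rw [map_sub, map_one, sub_eq_zero] at h1
      rw [h1, one_smul]
    · intro j _
      rw [(res_eq_zero_iff_mem _).mpr (hxv j.succ (Fin.succ_ne_zero j)), zero_smul]
  have hmemsum : ∀ {ι : Type} [Fintype ι] (Dx : Divisor K F) (t : ι → R.A) (w : ι → R.Rw),
      (∀ i, (w i : F) ∈ riemannRochSpace Dx) →
      ((∑ i, smulA R (t i) (w i) : R.Rw) : F) ∈ riemannRochSpace Dx := by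
    intro ι _ Dx t w hw
    rw [coe_sum_smulA]
    exact Submodule.sum_mem _ fun i _ => Submodule.smul_mem _ _ (hw i)
  have hu : (uR : F) ∈ riemannRochSpace Du := by
    rw [huR, Subring.coe_add]
    exact add_mem (hμD 0) (hmemsum Du _ _ fun i => hμD _)
  have hf : (fR : F) ∈ riemannRochSpace Df := by
    rw [hfR, Subring.coe_add]
    exact add_mem (hφD 0) (hmemsum Df _ _ fun i => hφD _)
  have hv : (vR : F) ∈ riemannRochSpace Dv := by
    rw [hvR]
    exact hmemsum Dv _ _ fun j => hνD j
  have huv : (uR : F) ^ p = (fR : F) * (vR : F) := by rw [huF, hfF, hvF]; exact hsol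
  exact Book.exists_nsmul_eq_of_charts H (by omega) hPP' 𝔠 𝔠'' hdisj hu1 hf1 hv1 hu hf hv huv D hD

end Fermat.Agent.GR.W.K2.Upfv.Main
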