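/-
GATE-R / S17 (W) — node GR-W-K2-UPFV-BRIDGE (helper68): frame-side glue of helper19's chart-free K2
route (board 4799, `u ^ p = f * v` in FIXED L-spaces) for the abstract polynomial-system theorem
(helper52 `PolyAbs`, board 4971).  Abstract frame of `GH/Vocab.lean`.

* `PolyAbsStmt A F`  : the statement of the abstract polynomial-system theorem (hypothesis form);
* `prod_mem_nsmul`   : a product of `p` elements of `L(D)` lies in `L(p • D)`;
* `exists_coords_of_mem` : `A`-coordinates in a Gauss basis `ω`;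
* `coords_mem_maximalIdeal_of_red_eq_zero` : reduction `0` ⟹ coordinates in `𝔪_A`;
* `hpair_of_polyAbs` : the abstract pair theorem `∀ D ∈ pairSet (rOf H), ∃ y, p • y = Pic0.mk D`
  from `PolyAbsStmt R.A F` (via `Setup.exists_upfv_data`, `SpecialJac.jac_injective`,
  `Book.exists_nsmul_eq_of_charts`).
-/
import Mathlib
import Fermat.Agent.GR.W.K2.KerGen
import Fermat.Agent.GR.W.K2.Upfv.Setup
import Fermat.Agent.GR.W.K2.Upfv.SpecialJac

set_option autoImplicit false
set_option linter.unusedSectionVars false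

noncomputable section

open AlgebraicCurve Module

namespace Fermat.Agent.GR.W.K2.Upfv.Bridge

open Fermat.Agent.RRh45 Fermat.Agent.GJ.S37MinDiv Fermat.Agent.GJ.J1 Fermat.Agent.GJ.S37LSpace
  Fermat.Agent.GJ.S37ROfSurj Fermat.Agent.GH Fermat.Agent.GH.L Fermat.Agent.GR.W.K2.LatticeBasis
  Fermat.Agent.GR.W.K2.Upfv.Spaces

/-- the statement of the abstract polynomial-system theorem of the UPFV route (helper52, board
4971), for a fixed valuation subring `A ⊆ K` and a `K`-algebra `F`. -/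
def PolyAbsStmt {K : Type*} [Field K] (A : ValuationSubring K) (F : Type*) [CommRing F]
    [Algebra K F] : Prop :=
  ∀ (p a b e d : ℕ) (_hcount : a + b + (e + 1) = d)
    (μ : Fin (a + 1) → F) (φ : Fin (b + 1) → F) (ν : Fin (e + 1) → F) (ω : Fin d → F)
    (_hω : LinearIndependent K ω)
    (_hμω : ∀ s : Fin p → Fin (a + 1), ∃ t : Fin d → A,
      ∏ r, μ (s r) = ∑ m, ((t m : A) : K) • ω m)
    (_hφν : ∀ i j, ∃ t : Fin d → A, φ i * ν j = ∑ m, ((t m : A) : K) • ω m)
    (_h0 : ∃ t : Fin d → A, (∀ m, t m ∈ IsLocalRing.maximalIdeal A) ∧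
      μ 0 ^ p - φ 0 * ν 0 = ∑ m, ((t m : A) : K) • ω m)
    (_hJ : ∀ (dx : Fin a → A) (dy : Fin b → A) (dz : Fin (e + 1) → A) (t : Fin d → A),
      (∀ m, t m ∈ IsLocalRing.maximalIdeal A) →
      (p : F) * μ 0 ^ (p - 1) * ∑ i, ((dx i : A) : K) • μ i.succ
          - ν 0 * ∑ i, ((dy i : A) : K) • φ i.succ - φ 0 * ∑ j, ((dz j : A) : K) • ν j
        = ∑ m, ((t m : A) : K) • ω m →
      (∀ i, dx i ∈ IsLocalRing.maximalIdeal A) ∧ (∀ i, dy i ∈ IsLocalRing.maximalIdeal A) ∧
        ∀ j, dz j ∈ IsLocalRing.maximalIdeal A),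
    ∃ (x : Fin a → A) (y : Fin b → A) (z : Fin (e + 1) → A),
      (∀ i, x i ∈ IsLocalRing.maximalIdeal A) ∧ (∀ i, y i ∈ IsLocalRing.maximalIdeal A) ∧
      z 0 - 1 ∈ IsLocalRing.maximalIdeal A ∧
      (∀ j : Fin e, z j.succ ∈ IsLocalRing.maximalIdeal A) ∧
      (μ 0 + ∑ i, ((x i : A) : K) • μ i.succ) ^ p =
        (φ 0 + ∑ i, ((y i : A) : K) • φ i.succ) * ∑ j, ((z j : A) : K) • ν j

variable {K F k Ft : Type*} [Field K] [Field F] [Algebra K F] [Field k] [Field Ft] [Algebra k Ft]

/-! ### products in L-spaces -/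

/-- a product of elements of `L(D)` over a finset `s` lies in `L(#s • D)`. -/
theorem finsetProd_mem_nsmul {ι : Type*} (D : Divisor K F) (s : Finset ι) (f : ι → F)
    (hf : ∀ r ∈ s, f r ∈ riemannRochSpace D) :
    ∏ r ∈ s, f r ∈ riemannRochSpace (s.card • D) := by
  classical
  induction s using Finset.induction_on with
  | empty =>
    rw [Finset.prod_empty, Finset.card_empty, zero_nsmul]
    exact one_mem_riemannRochSpace le_rfl
  | insert r s hr ih =>
    rw [Finset.prod_insert hr, Finset.card_insert_of_notMem hr, succ_nsmul']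
    exact mul_mem_riemannRochSpace_add (hf r (Finset.mem_insert_self r s))
      (ih fun r' hr' => hf r' (Finset.mem_insert_of_mem hr'))

/-- a product of `p` elements of `L(D)` lies in `L(p • D)`. -/
theorem prod_mem_nsmul (D : Divisor K F) {p : ℕ} (f : Fin p → F)
    (hf : ∀ r, f r ∈ riemannRochSpace D) : ∏ r, f r ∈ riemannRochSpace (p • D) := by
  have := finsetProd_mem_nsmul D Finset.univ f fun r _ => hf r
  rwa [Finset.card_univ, Fintype.card_fin] at this

variable {R : RedData K F k Ft}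

/-! ### coordinates in a Gauss basis -/

/-- `res a = 0 ↔ a ∈ 𝔪_A`. -/
theorem res_eq_zero_iff_mem (a : R.A) : R.res a = 0 ↔ a ∈ IsLocalRing.maximalIdeal R.A := by
  rw [res_eq_zero_iff, ValuationSubring.valuation_lt_one_iff]

/-- `A`-coordinates of an element of `L ∩ Rw` in a Gauss basis `ω` of `L`. -/
theorem exists_coords_of_mem {d : ℕ} (ω : Fin d → R.Rw) {L : Submodule K F}
    (hspan : Submodule.span K (Set.range fun m => (ω m : F)) = L)
    (hgauss : ∀ t : Fin d → K, (∑ m, t m • (ω m : F)) ∈ R.Rw ↔ ∀ m, t m ∈ R.A)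
    (y : R.Rw) (hy : (y : F) ∈ L) :
    ∃ t : Fin d → R.A, (y : F) = ∑ m, ((t m : R.A) : K) • (ω m : F) ∧
      R.red y = ∑ m, R.res (t m) • R.red (ω m) :=
  exists_coords ω (fun t => (hgauss t).mp) y (by rw [hspan]; exact hy)

/-- an element of `Rw` with reduction `0` has all its Gauss coordinates in `𝔪_A`. -/
theorem coords_mem_maximalIdeal_of_red_eq_zero {d : ℕ} (ω : Fin d → R.Rw)
    (hωk : LinearIndependent k (fun m => R.red (ω m))) (y : R.Rw) (hy0 : R.red y = 0)
    (t : Fin d → R.A) (hyt : (y : F) = ∑ m, ((t m : R.A) : K) • (ω m : F)) (m : Fin d) :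
    t m ∈ IsLocalRing.maximalIdeal R.A := by
  have h1 := red_eq_sum_of_coe_eq R Finset.univ t ω y hyt
  rw [hy0] at h1
  rw [← res_eq_zero_iff_mem]
  exact Fintype.linearIndependent_iff.mp hωk (fun m => R.res (t m)) h1.symm m

variable {g c : ℤ}
variable [FiniteResidues K F] [HasPrincipalDivisors K F] [Nonempty (Place K F)]
variable [FiniteResidues k Ft] [HasPrincipalDivisors k Ft] [Nonempty (Place k Ft)]
variable [Infinite k]

/-- **the abstract pair theorem of the UPFV route**, from the abstract polynomial-system theorem: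
every class `[P − P']` of two points with the same reduction is `p`-divisible in `Pic⁰`, for every
`p` invertible in the residue field. -/
theorem hpair_of_polyAbs (hPoly : PolyAbsStmt R.A F) (H : LSpaceHyp R g c) {n : ℕ}
    (hn : (n : ℤ) = g) (p : ℕ) (hp : (p : k) ≠ 0) :
    ∀ D ∈ Fermat.Agent.GR.W.K2.KerGen.pairSet (rOf H), ∃ y : Pic0 K F, p • y = Pic0.mk D := by
  classical
  rintro D ⟨P, P', hPP', hD⟩
  have hp0 : p ≠ 0 := by
    rintro rfl
    exact hp Nat.cast_zero
  have hp1 : 1 ≤ p := Nat.one_le_iff_ne_zero.mpr hp0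
  obtain ⟨𝔠, 𝔠'', hdisj, a, b, e, d, μ, φ, ν, ω, hcount, hμ0, hφ0, hν0, hμD, hφD, hνD, hωD,
    hμL, hφL, hνL, -, hμk, hφk, hνk, hωk, hωspan, hωK, hωgauss, hns, hns'', hdisjt⟩ :=
    Setup.exists_upfv_data H hn hp1 hPP'
  -- abbreviations
  set G : Divisor K F := 𝔠.D0 with hG
  set G'' : Divisor K F := 𝔠''.D0 with hG''
  set Gt : Divisor k Ft := ∑ i, Finsupp.single (𝔠.Q i) (1 : ℤ) with hGt
  set Gt'' : Divisor k Ft := ∑ i, Finsupp.single (𝔠''.Q i) (1 : ℤ) with hGt''
  have hG0 : 0 ≤ G := AuxData.D0_nonneg 𝔠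
  have hG''0 : 0 ≤ G'' := AuxData.D0_nonneg 𝔠''
  have hGt0 : 0 ≤ Gt := chartDiv_nonneg H 𝔠
  have hGt''0 : 0 ≤ Gt'' := chartDiv_nonneg H 𝔠''
  have hDV0 : 0 ≤ p • G + p • G'' := add_nonneg (nsmul_nonneg hG0 p) (nsmul_nonneg hG''0 p)
  have hDfv : (p • G + Finsupp.single P 1 - Finsupp.single P' 1) +
      (p • G'' + Finsupp.single P' 1 - Finsupp.single P 1) = p • G + p • G'' := by abel
  -- coordinates of elements of `Rw ∩ L(pG + pG'')`
  have hcoords : ∀ y : R.Rw, (y : F) ∈ riemannRochSpace (p • G + p • G'') →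
      ∃ t : Fin d → R.A, (y : F) = ∑ m, ((t m : R.A) : K) • (ω m : F) ∧
        R.red y = ∑ m, R.res (t m) • R.red (ω m) :=
    fun y hy => exists_coords_of_mem ω hωspan hωgauss y hy
  have hφνmem : ∀ i j, ((φ i * ν j : R.Rw) : F) ∈ riemannRochSpace (p • G + p • G'') := by
    intro i j
    have := mul_mem_riemannRochSpace_add (hφD i) (hνD j)
    rw [hDfv] at this
    exact this
  -- apply the abstract theorem
  obtain ⟨x, y, z, hx, hy, hz0, hz, huv⟩ := hPoly p a b e d hcount
    (fun i => (μ i : F)) (fun i => (φ i : F)) (fun j => (ν j : F)) (fun m => (ω m : F)) hωK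
    (by
      -- (B1) `p`-fold products of the `μ`
      intro s
      have hmem : ((∏ r, μ (s r) : R.Rw) : F) ∈ riemannRochSpace (p • G + p • G'') := by
        rw [SubmonoidClass.coe_finsetProd, ← nsmul_add]
        exact prod_mem_nsmul (G + G'') (fun r => (μ (s r) : F)) fun r => hμD (s r)
      obtain ⟨t, ht, -⟩ := hcoords _ hmem
      exact ⟨t, by rw [← ht, SubmonoidClass.coe_finsetProd]⟩)
    (by
      -- (B2) products `φ_i ν_j`
      intro i j
      obtain ⟨t, ht, -⟩ := hcoords _ (hφνmem i j)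
      exact ⟨t, ht⟩)
    (by
      -- (B3) the base point
      have hmem : ((μ 0 ^ p - φ 0 * ν 0 : R.Rw) : F) ∈ riemannRochSpace (p • G + p • G'') := by
        have h1 : ((μ 0 ^ p : R.Rw) : F) ∈ riemannRochSpace (p • G + p • G'') := by
          rw [hμ0, one_pow]
          simpa using one_mem_riemannRochSpace hDV0
        exact Submodule.sub_mem _ h1 (hφνmem 0 0)
      obtain ⟨t, ht, -⟩ := hcoords _ hmem
      refine ⟨t, fun m => ?_, ht⟩
      refine coords_mem_maximalIdeal_of_red_eq_zero ω hωk _ ?_ t ht m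
      rw [map_sub, map_mul, map_pow, hμ0, map_one, one_pow, hφ0, hν0, mul_one, sub_self])
    (by
      -- (B4) the Jacobian
      intro dx dy dz t ht hcomb
      set Sx : R.Rw := ∑ i, smulA R (dx i) (μ i.succ) with hSx
      set Sy : R.Rw := ∑ i, smulA R (dy i) (φ i.succ) with hSy
      set Sz : R.Rw := ∑ j, smulA R (dz j) (ν j) with hSz
      set Y : R.Rw := (p : R.Rw) * μ 0 ^ (p - 1) * Sx - ν 0 * Sy - φ 0 * Sz with hY
      have hYcoe : (Y : F) = ∑ m, ((t m : R.A) : K) • (ω m : F) := by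
        rw [← hcomb, hY, hSx, hSy, hSz]
        push_cast
        simp only [coe_smulA]
      have hY0 : R.red Y = 0 := by
        have h1 := red_eq_sum_of_coe_eq R Finset.univ t ω Y hYcoe
        rw [h1]
        refine Finset.sum_eq_zero fun m _ => ?_
        rw [(res_eq_zero_iff_mem (t m)).mpr (ht m), zero_smul]
      have hYred : R.red Y = (p : Ft) * ∑ i, R.res (dx i) • R.red (μ i.succ)
          - ∑ i, R.res (dy i) • R.red (φ i.succ) - ∑ j, R.res (dz j) • R.red (ν j) := by
        rw [hY, hSx, hSy, hSz]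
        simp only [map_sub, map_mul, map_natCast, hμ0, one_pow, mul_one, hφ0, hν0, one_mul,
          red_sum_smulA]
      rw [hY0] at hYred
      have hlin : (p : Ft) * ∑ i, R.res (dx i) • R.red (μ i.succ) =
          ∑ i, R.res (dy i) • R.red (φ i.succ) + ∑ j, R.res (dz j) • R.red (ν j) := by
        have := hYred.symm
        rw [sub_sub, sub_eq_zero] at this
        exact this
      obtain ⟨h1, h2, h3⟩ := SpecialJac.jac_injective hGt0 hGt''0 hdisjt
        (SpecialJac.forall_const_of_finrank_eq_one hGt0 hns)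
        (SpecialJac.forall_const_of_finrank_eq_one hGt''0 hns'') p hp
        (fun i => R.red (μ i)) (fun i => R.red (φ i)) (fun j => R.red (ν j))
        (by rw [hμ0, map_one]) hφ0 hμk hφk hνk hμL hφL hνL
        (fun i => R.res (dx i)) (fun i => R.res (dy i)) (fun j => R.res (dz j)) hlin
      exact ⟨fun i => (res_eq_zero_iff_mem _).mp (congrFun h1 i),
        fun i => (res_eq_zero_iff_mem _).mp (congrFun h2 i),
        fun j => (res_eq_zero_iff_mem _).mp (congrFun h3 j)⟩)
  -- (B5) the exact solution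
  set u : R.Rw := μ 0 + ∑ i, smulA R (x i) (μ i.succ) with hu
  set f : R.Rw := φ 0 + ∑ i, smulA R (y i) (φ i.succ) with hf
  set v : R.Rw := ∑ j, smulA R (z j) (ν j) with hv
  have hucoe : (u : F) = (μ 0 : F) + ∑ i, ((x i : R.A) : K) • (μ i.succ : F) := by
    rw [hu]; push_cast; simp only [coe_smulA]
  have hfcoe : (f : F) = (φ 0 : F) + ∑ i, ((y i : R.A) : K) • (φ i.succ : F) := by
    rw [hf]; push_cast; simp only [coe_smulA]
  have hvcoe : (v : F) = ∑ j, ((z j : R.A) : K) • (ν j : F) := by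
    rw [hv, coe_sum_smulA]
  have hu1 : R.red u = 1 := by
    rw [hu, map_add, red_sum_smulA, hμ0, map_one]
    rw [Finset.sum_eq_zero fun i _ => by
      rw [(res_eq_zero_iff_mem (x i)).mpr (hx i), zero_smul], add_zero]
  have hf1 : R.red f = 1 := by
    rw [hf, map_add, red_sum_smulA, hφ0]
    rw [Finset.sum_eq_zero fun i _ => by
      rw [(res_eq_zero_iff_mem (y i)).mpr (hy i), zero_smul], add_zero]
  have hv1 : R.red v = 1 := by
    rw [hv, red_sum_smulA, Fin.sum_univ_succ, hν0]
    rw [Finset.sum_eq_zero fun j _ => by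
      rw [(res_eq_zero_iff_mem (z j.succ)).mpr (hz j), zero_smul], add_zero]
    have hz1 : R.res (z 0) = 1 := by
      have := (res_eq_zero_iff_mem (z 0 - 1)).mpr hz0
      rw [map_sub, map_one, sub_eq_zero] at this
      exact this
    rw [hz1, one_smul]
  have huD : (u : F) ∈ riemannRochSpace (G + G'') := by
    rw [hucoe]
    exact Submodule.add_mem _ (hμD 0)
      (Submodule.sum_mem _ fun i _ => Submodule.smul_mem _ _ (hμD i.succ))
  have hfD : (f : F) ∈
      riemannRochSpace (p • G + Finsupp.single P 1 - Finsupp.single P' 1) := by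
    rw [hfcoe]
    exact Submodule.add_mem _ (hφD 0)
      (Submodule.sum_mem _ fun i _ => Submodule.smul_mem _ _ (hφD i.succ))
  have hvD : (v : F) ∈
      riemannRochSpace (p • G'' + Finsupp.single P' 1 - Finsupp.single P 1) := by
    rw [hvcoe]
    exact Submodule.sum_mem _ fun j _ => Submodule.smul_mem _ _ (hνD j)
  have huvF : (u : F) ^ p = (f : F) * (v : F) := by
    rw [hucoe, hfcoe, hvcoe]; exact huv
  exact Book.exists_nsmul_eq_of_charts H hp0 hPP' 𝔠 𝔠'' hdisj hu1 hf1 hv1 huD hfD hvD huvF D hD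

end Fermat.Agent.GR.W.K2.Upfv.Bridge
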