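/-
GATE-R / S17, node GR-W-K2-UPFV-DETUNIT (helper54; leaf of helper52's K2 ruling, board 4878 §3).
Mathlib-only.

"SQUARE + INJECTIVE MODULO `𝔪` ⟹ UNIT DETERMINANT" over a local ring `A`:

* `map_eq_zero_iff_mem_maximalIdeal` : a surjective ring hom from a local ring onto a field kills
  exactly the maximal ideal;
* `isUnit_det_of_map_mulVec_injective` : `φ : A →+* k` onto a field, `(J.map φ).mulVec` injective
  ⟹ `IsUnit J.det`;
* `isUnit_det_of_forall_map` : the same with the injectivity spelled out on sums;
* `isUnit_det_of_forall_mem` : helper52's shape — `J d ∈ 𝔪^ι ⟹ d ∈ 𝔪^ι`  ⟹ `IsUnit J.det`;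
* `isUnit_det_submatrix_of_forall_map`, `isUnit_det_submatrix_of_forall_mem` : rectangular index
  types (equations `ι`, unknowns `κ`, `e : κ ≃ ι`): the square matrix `J.submatrix e id` has unit
  determinant.
-/
import Mathlib

set_option autoImplicit false

open IsLocalRing

namespace Fermat.Agent.GR.W.K2.Upfv.DetUnit

variable {A : Type*} [CommRing A] [IsLocalRing A]

/-- a surjective ring hom from a local ring onto a field kills exactly the maximal ideal -/
theorem map_eq_zero_iff_mem_maximalIdeal {k : Type*} [Field k] (φ : A →+* k)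
    (hφ : Function.Surjective φ) (a : A) : φ a = 0 ↔ a ∈ maximalIdeal A := by
  have hmax : (RingHom.ker φ).IsMaximal := RingHom.ker_isMaximal_of_surjective φ hφ
  rw [← IsLocalRing.eq_maximalIdeal hmax, RingHom.mem_ker]

section Square

variable {ι : Type*} [Fintype ι] [DecidableEq ι]

/-- residue form: the reduction of `J` has injective `mulVec` ⟹ `det J` is a unit -/
theorem isUnit_det_of_map_mulVec_injective {k : Type*} [Field k] (φ : A →+* k)
    (hφ : Function.Surjective φ) (J : Matrix ι ι A)
    (h : Function.Injective (J.map φ).mulVec) : IsUnit J.det := by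
  have h1 : IsUnit (J.map φ).det :=
    (Matrix.isUnit_iff_isUnit_det _).1 (Matrix.mulVec_injective_iff_isUnit.1 h)
  have h2 : φ J.det = (J.map φ).det := by
    rw [RingHom.map_det]
    rfl
  rw [← IsLocalRing.notMem_maximalIdeal, ← map_eq_zero_iff_mem_maximalIdeal φ hφ, h2]
  exact h1.ne_zero

/-- residue form, injectivity spelled out: the linear system `∑ j, φ (J i j) * d j = 0` over the
residue field has only the zero solution ⟹ `det J` is a unit -/
theorem isUnit_det_of_forall_map {k : Type*} [Field k] (φ : A →+* k)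
    (hφ : Function.Surjective φ) (J : Matrix ι ι A)
    (h : ∀ d : ι → k, (∀ i, ∑ j, φ (J i j) * d j = 0) → d = 0) : IsUnit J.det := by
  refine isUnit_det_of_map_mulVec_injective φ hφ J fun d₁ d₂ hd ↦ ?_
  have h0 : (J.map φ).mulVec (d₁ - d₂) = 0 := by rw [Matrix.mulVec_sub, hd, sub_self]
  refine sub_eq_zero.1 (h (d₁ - d₂) fun i ↦ ?_)
  have := congrFun h0 i
  simpa [Matrix.mulVec, dotProduct] using this

/-- **helper52's shape**: if `J d ∈ 𝔪^ι` forces `d ∈ 𝔪^ι`, then `det J` is a unit -/
theorem isUnit_det_of_forall_mem (J : Matrix ι ι A)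
    (hinj : ∀ d : ι → A, (∀ i, (J.mulVec d) i ∈ maximalIdeal A) → ∀ j, d j ∈ maximalIdeal A) :
    IsUnit J.det := by
  refine isUnit_det_of_forall_map (residue A) IsLocalRing.residue_surjective J fun d hd ↦ ?_
  choose d' hd' using fun j ↦ IsLocalRing.residue_surjective (d j)
  have h1 : ∀ i, (J.mulVec d') i ∈ maximalIdeal A := by
    intro i
    rw [← map_eq_zero_iff_mem_maximalIdeal (residue A) IsLocalRing.residue_surjective,
      Matrix.mulVec, dotProduct, map_sum, ← hd i]
    exact Finset.sum_congr rfl fun j _ ↦ by rw [map_mul, hd' j]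
  funext j
  rw [← hd' j, Pi.zero_apply,
    map_eq_zero_iff_mem_maximalIdeal (residue A) IsLocalRing.residue_surjective]
  exact hinj d' h1 j

end Square

section Rect

variable {ι κ : Type*} [Fintype κ] [DecidableEq κ]

/-- rectangular index types (equations indexed by `ι`, unknowns by `κ ≃ ι`), residue form -/
theorem isUnit_det_submatrix_of_forall_map {k : Type*} [Field k] (φ : A →+* k)
    (hφ : Function.Surjective φ) (e : κ ≃ ι) (J : Matrix ι κ A)
    (h : ∀ d : κ → k, (∀ i, ∑ j, φ (J i j) * d j = 0) → d = 0) :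
    IsUnit (J.submatrix e id).det :=
  isUnit_det_of_forall_map φ hφ _ fun d hd ↦ h d fun i ↦ by
    have := hd (e.symm i)
    simpa using this

/-- rectangular index types, helper52's shape -/
theorem isUnit_det_submatrix_of_forall_mem (e : κ ≃ ι) (J : Matrix ι κ A)
    (hinj : ∀ d : κ → A, (∀ i, (J.mulVec d) i ∈ maximalIdeal A) → ∀ j, d j ∈ maximalIdeal A) :
    IsUnit (J.submatrix e id).det :=
  isUnit_det_of_forall_mem _ fun d hd ↦ hinj d fun i ↦ by
    have := hd (e.symm i)
    simpa [Matrix.mulVec, dotProduct] using this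

end Rect

end Fermat.Agent.GR.W.K2.Upfv.DetUnit
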