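/-
GATE-R / S17, node GR-W-K2-UPFV-DETUNIT, part 2 (helper54): helper22's multi-variable Hensel
(`GR/W/MvHensel.lean`) in CONSUMER form for the UPFV system `u^p = f·v` (helper19, board 4799):

* equations indexed by `ι`, unknowns by `κ`, with `e : κ ≃ ι` (or only `card κ = card ι`);
* the Jacobian hypothesis is INJECTIVITY of the linearised system over the residue field
  (`φ : A →+* k` any surjection onto a field, e.g. `R.res` of the `GH/Vocab` frame), or helper52's
  `𝔪`-membership shape — no determinant in sight.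
-/
import Mathlib
import Fermat.Agent.GR.W.MvHensel
import Fermat.Agent.GR.W.K2.Upfv.DetUnit

set_option autoImplicit false

open IsLocalRing MvPolynomial

namespace Fermat.Agent.GR.W.K2.Upfv.HenselInj

open Fermat.Agent.GR.W.K2.Upfv.DetUnit

variable {K : Type*} [Field K] [IsAlgClosed K] (A : ValuationSubring K)
variable {ι κ : Type*} [Fintype κ] [DecidableEq κ]

/-- **Hensel, rectangular index types, unit determinant of the re-indexed Jacobian.** -/
theorem exists_root_of_equiv (e : κ ≃ ι) (F : ι → MvPolynomial κ A) (x₀ : κ → A)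
    (h₀ : ∀ i, eval x₀ (F i) ∈ maximalIdeal A)
    (hJ : IsUnit (Matrix.det
      ((Matrix.of fun (i : ι) (j : κ) => eval x₀ (pderiv j (F i))).submatrix e id))) :
    ∃ x : κ → A, (∀ i, eval x (F i) = 0) ∧ ∀ j, x j - x₀ j ∈ maximalIdeal A := by
  obtain ⟨x, hx, hxc⟩ := Fermat.Agent.GR.MvHensel.exists_root A (fun j' : κ => F (e j')) x₀
    (fun j' => h₀ (e j')) hJ
  refine ⟨x, fun i => ?_, hxc⟩
  have := hx (e.symm i)
  rwa [e.apply_symm_apply] at this

/-- **Hensel with an injective linearisation over the residue field**: equations `F i`, `i : ι`,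
in the unknowns `κ ≃ ι`; `x₀` an approximate root modulo `𝔪_A`; the linear system
`∑ j, φ (∂_j F_i (x₀)) * d j = 0` over the residue field has only the zero solution. -/
theorem exists_root_of_forall_map (e : κ ≃ ι) (F : ι → MvPolynomial κ A) (x₀ : κ → A)
    (h₀ : ∀ i, eval x₀ (F i) ∈ maximalIdeal A)
    {k : Type*} [Field k] (φ : A →+* k) (hφ : Function.Surjective φ)
    (hinj : ∀ d : κ → k, (∀ i, ∑ j, φ (eval x₀ (pderiv j (F i))) * d j = 0) → d = 0) :
    ∃ x : κ → A, (∀ i, eval x (F i) = 0) ∧ ∀ j, x j - x₀ j ∈ maximalIdeal A :=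
  exists_root_of_equiv A e F x₀ h₀
    (isUnit_det_submatrix_of_forall_map φ hφ e _ fun d hd => hinj d fun i => by
      have := hd i
      simpa using this)

/-- the same with helper52's `𝔪`-membership hypothesis -/
theorem exists_root_of_forall_mem (e : κ ≃ ι) (F : ι → MvPolynomial κ A) (x₀ : κ → A)
    (h₀ : ∀ i, eval x₀ (F i) ∈ maximalIdeal A)
    (hinj : ∀ d : κ → A, (∀ i, ∑ j, eval x₀ (pderiv j (F i)) * d j ∈ maximalIdeal A) →
      ∀ j, d j ∈ maximalIdeal A) :
    ∃ x : κ → A, (∀ i, eval x (F i) = 0) ∧ ∀ j, x j - x₀ j ∈ maximalIdeal A :=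
  exists_root_of_equiv A e F x₀ h₀
    (isUnit_det_submatrix_of_forall_mem e _ fun d hd => hinj d fun i => by
      have := hd i
      simpa [Matrix.mulVec, dotProduct] using this)

/-- the same, with only the COUNT `card κ = card ι` ("square system") -/
theorem exists_root_of_card_eq [Fintype ι] (hcard : Fintype.card κ = Fintype.card ι)
    (F : ι → MvPolynomial κ A) (x₀ : κ → A)
    (h₀ : ∀ i, eval x₀ (F i) ∈ maximalIdeal A)
    {k : Type*} [Field k] (φ : A →+* k) (hφ : Function.Surjective φ)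
    (hinj : ∀ d : κ → k, (∀ i, ∑ j, φ (eval x₀ (pderiv j (F i))) * d j = 0) → d = 0) :
    ∃ x : κ → A, (∀ i, eval x (F i) = 0) ∧ ∀ j, x j - x₀ j ∈ maximalIdeal A :=
  exists_root_of_forall_map A (Fintype.equivOfCardEq hcard) F x₀ h₀ φ hφ hinj

end Fermat.Agent.GR.W.K2.Upfv.HenselInj
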