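/-
GATE-R / S17 (W), node GR-W-K2-UPFV-DIFFQUOT (helper75): multi-variable Hensel with the Jacobian
identified by DIFFERENCE QUOTIENTS.

For the UPFV system `u^p = f·v` (helper19, board 4799) the equations are the lattice coordinates of
`u(x)^p − f(y)·v(z)`.  Their partial derivatives at the base point are awkward to compute
symbolically (derivative of a `p`-fold product of linear forms), but the increments
`Φ(x₀ + ε·e_j) − Φ(x₀)` are computed in the function field by the binomial theorem:
`(1 + ε μ)^p − 1 = ε·(p μ) + ε²·(…)`.  This file turns such an expansion into the Jacobian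
hypothesis of helper22's Hensel lemma:

* `pderiv_sub_mem_of_diffQuot` : (domain `R`, ideal `𝔪`, `0 ≠ ε ∈ 𝔪`)
  `eval (x₀ + ε e_j) F = eval x₀ F + ε t + ε m`, `m ∈ 𝔪` `⟹ ∂_j F (x₀) − t ∈ 𝔪`;
* `exists_root_of_diffQuot` : Hensel for a square system over a valuation subring `A` of an
  algebraically closed field, with a matrix `T` such that
  `eval (x₀ + ε e_j) (F i) = eval x₀ (F i) + ε T i j + ε m`, `m ∈ 𝔪_A`, for all `ε ∈ 𝔪_A`, and the
  linear system `∑ j, φ (T i j) d j = 0` over the residue field having only the zero solution.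
-/
import Mathlib
import Fermat.Agent.GR.W.MvHensel
import Fermat.Agent.GR.W.K2.Upfv.HenselInj

set_option autoImplicit false

open IsLocalRing MvPolynomial

namespace Fermat.Agent.GR.W.K2.Upfv.DiffQuot

section Domain

variable {R : Type*} [CommRing R] [IsDomain R] {κ : Type*} [Fintype κ] [DecidableEq κ]

/-- **the Jacobian modulo `𝔪` from a difference quotient.** -/
theorem pderiv_sub_mem_of_diffQuot (𝔪 : Ideal R) (F : MvPolynomial κ R) (x₀ : κ → R) (j : κ)
    (t : R) {ε : R} (hε0 : ε ≠ 0) (hε : ε ∈ 𝔪)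
    (h : ∃ m ∈ 𝔪, eval (x₀ + Pi.single j ε) F = eval x₀ F + ε * t + ε * m) :
    eval x₀ (pderiv j F) - t ∈ 𝔪 := by
  obtain ⟨m, hm, hF⟩ := h
  have hh : ∀ j', (Pi.single j ε : κ → R) j' ∈ Ideal.span ({ε} : Set R) := by
    intro j'
    by_cases hj : j' = j
    · subst hj
      rw [Pi.single_eq_same]
      exact Ideal.subset_span rfl
    · rw [Pi.single_eq_of_ne hj]
      exact Ideal.zero_mem _
  have htay := Fermat.Agent.GR.MvHensel.taylor_mem_sq (Ideal.span ({ε} : Set R)) x₀
    (Pi.single j ε) hh F
  have hsum : ∑ j', eval x₀ (pderiv j' F) * (Pi.single j ε : κ → R) j' =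
      eval x₀ (pderiv j F) * ε := by
    rw [Finset.sum_eq_single j]
    · rw [Pi.single_eq_same]
    · intro j' _ hj'
      rw [Pi.single_eq_of_ne hj', mul_zero]
    · intro hj
      exact absurd (Finset.mem_univ j) hj
  rw [hsum, Ideal.span_singleton_pow, Ideal.mem_span_singleton'] at htay
  obtain ⟨r, hr⟩ := htay
  -- `ε * (t + m - ∂ - ε r) = 0`
  have hkey : ε * (eval x₀ (pderiv j F) - t - (m - ε * r)) = 0 := by
    have h1 : r * ε ^ 2 = ε * t + ε * m - eval x₀ (pderiv j F) * ε := by
      rw [hr, hF]; ring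
    have : ε * (eval x₀ (pderiv j F) - t - (m - ε * r)) =
        -(ε * t + ε * m - eval x₀ (pderiv j F) * ε) + r * ε ^ 2 := by ring
    rw [this, h1]; ring
  have h0 : eval x₀ (pderiv j F) - t - (m - ε * r) = 0 :=
    (mul_eq_zero.mp hkey).resolve_left hε0
  have : eval x₀ (pderiv j F) - t = m - ε * r := sub_eq_zero.mp h0
  rw [this]
  exact Ideal.sub_mem _ hm (Ideal.mul_mem_right _ _ hε)

end Domain

section Hensel

variable {K : Type*} [Field K] [IsAlgClosed K] (A : ValuationSubring K)
variable {ι κ : Type*} [Fintype κ] [DecidableEq κ] [Fintype ι]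

/-- **Hensel with a difference-quotient Jacobian** (square system `card κ = card ι`): `x₀` an
approximate root modulo `𝔪_A`; `T` the first-order coefficients of the increments along the
coordinate directions, modulo `𝔪_A`; the linear system with matrix `φ ∘ T` over the residue field
has only the zero solution. -/
theorem exists_root_of_diffQuot (hcard : Fintype.card κ = Fintype.card ι)
    (F : ι → MvPolynomial κ A) (x₀ : κ → A)
    (h₀ : ∀ i, eval x₀ (F i) ∈ maximalIdeal A)
    (T : ι → κ → A)
    (hT : ∀ ε ∈ maximalIdeal A, ∀ (j : κ) (i : ι), ∃ m ∈ maximalIdeal A,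
      eval (x₀ + Pi.single j ε) (F i) = eval x₀ (F i) + ε * T i j + ε * m)
    {k : Type*} [Field k] (φ : A →+* k) (hφ : Function.Surjective φ)
    (hinj : ∀ d : κ → k, (∀ i, ∑ j, φ (T i j) * d j = 0) → d = 0) :
    ∃ x : κ → A, (∀ i, eval x (F i) = 0) ∧ ∀ j, x j - x₀ j ∈ maximalIdeal A := by
  by_cases hbot : maximalIdeal A = ⊥
  · -- trivial valuation: `x₀` is an exact root
    refine ⟨x₀, fun i => ?_, fun j => by rw [sub_self]; exact Ideal.zero_mem _⟩
    have := h₀ i
    rwa [hbot, Ideal.mem_bot] at this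
  · obtain ⟨ε, hε, hε0⟩ := Submodule.exists_mem_ne_zero_of_ne_bot hbot
    have hker : RingHom.ker φ = maximalIdeal A :=
      IsLocalRing.eq_maximalIdeal (RingHom.ker_isMaximal_of_surjective φ hφ)
    have hφT : ∀ i j, φ (eval x₀ (pderiv j (F i))) = φ (T i j) := by
      intro i j
      have hmem := pderiv_sub_mem_of_diffQuot (maximalIdeal A) (F i) x₀ j (T i j) hε0 hε
        (hT ε hε j i)
      rw [← hker, RingHom.mem_ker, map_sub, sub_eq_zero] at hmem
      exact hmem
    refine Fermat.Agent.GR.W.K2.Upfv.HenselInj.exists_root_of_card_eq A hcard F x₀ h₀ φ hφ ?_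
    intro d hd
    refine hinj d fun i => ?_
    have := hd i
    simpa only [hφT] using this

end Hensel

end Fermat.Agent.GR.W.K2.Upfv.DiffQuot
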